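import Fermat.Agent.S25.H11.ACDefs

/-!
# Row S25, block ALGCHARTS: the top assembly (helper145)

`Stmt.AlgCharts`-type conclusion `Nonempty (AlgChartFamily k B₀ B₁ B₀₁ e)` from the leaves of
helper11's skeleton (`coord/S25-ALGCHARTS-skeleton.lean`), taken as hypotheses in their exact
shapes:

* `GDCFacts`    : GDC1, GDC2, GDC4, GDC5, GDC6, GDC7;
* `StageLeaves` : `stage0_locus … stage4_locus`;
* `PointLeaves` : `pointCond_bc`, `pointCond_unique`, `pointCond_iso`;
* `CoverLeaf`   : `exists_good_chart`.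

The proof is formal.  Nothing is glued: the stage lemmas are chained by

* `Fib P`    : a rigidifiable degree-zero datum all of whose field-valued fibres satisfy `P`
               satisfies `P`;
* `Spread P` : if the fibre at one field-valued point satisfies `P`, so do all fibres over some
               `D(c)` containing the point;

(`step`: `Fib P`, `Spread P` and a stage lemma `P ⇒ HasLocus Q` give `Fib Q`, `Spread Q`), and the
locus ideal of a chart is the span of the elements `c` such that all fibres over `D(c)` lie in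
the chart.
-/

set_option autoImplicit false

universe u

open scoped TensorProduct

namespace Fermat.Agent.S25.H145.ACTop

open Fermat.Agent.S25 Fermat.Agent.S25.H11

variable {k : Type u} [Field k] {B₀ B₁ B₀₁ : Type u} [CommRing B₀] [CommRing B₁] [CommRing B₀₁]
  [Algebra k B₀] [Algebra k B₁] [Algebra k B₀₁] [Algebra B₀ B₀₁] [Algebra B₁ B₀₁]
  [IsScalarTower k B₀ B₀₁] [IsScalarTower k B₁ B₀₁]

/-! ## The leaves, as hypotheses -/

variable (k B₀ B₁ B₀₁) in
/-- The facts GDC1, GDC2, GDC4–GDC7 of the gluing-datum calculus (shapes of the skeleton). -/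
structure GDCFacts (e : B₁ →ₐ[k] k) : Prop where
  exists_bc : ∀ {A A' : Type u} [CommRing A] [Algebra k A] [CommRing A'] [Algebra k A']
    (φ : A →ₐ[k] A') (G : CurveGD k B₀ B₁ B₀₁ A),
    ∃ G' : CurveGD k B₀ B₁ B₀₁ A', CurveGD.IsBC φ G G'
  id : ∀ {A : Type u} [CommRing A] [Algebra k A] {G G' : CurveGD k B₀ B₁ B₀₁ A},
    G.IsIso G' → CurveGD.IsBC (AlgHom.id k A) G G'
  comp : ∀ {A A' A'' : Type u} [CommRing A] [Algebra k A] [CommRing A'] [Algebra k A']
    [CommRing A''] [Algebra k A''] {φ : A →ₐ[k] A'} {ψ : A' →ₐ[k] A''}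
    {G : CurveGD k B₀ B₁ B₀₁ A} {G' : CurveGD k B₀ B₁ B₀₁ A'} {G'' : CurveGD k B₀ B₁ B₀₁ A''},
    CurveGD.IsBC φ G G' → CurveGD.IsBC ψ G' G'' → CurveGD.IsBC (ψ.comp φ) G G''
  cancel : ∀ {A A' A'' : Type u} [CommRing A] [Algebra k A] [CommRing A'] [Algebra k A']
    [CommRing A''] [Algebra k A''] {φ : A →ₐ[k] A'} {ψ : A' →ₐ[k] A''}
    {G : CurveGD k B₀ B₁ B₀₁ A} {G' : CurveGD k B₀ B₁ B₀₁ A'} {G'' : CurveGD k B₀ B₁ B₀₁ A''},
    CurveGD.IsBC φ G G' → CurveGD.IsBC (ψ.comp φ) G G'' → CurveGD.IsBC ψ G' G''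
  rig : ∀ {A A' : Type u} [CommRing A] [Algebra k A] [CommRing A'] [Algebra k A']
    {φ : A →ₐ[k] A'} {G : CurveGD k B₀ B₁ B₀₁ A} {G' : CurveGD k B₀ B₁ B₀₁ A'},
    CurveGD.IsBC φ G G' → G.Rigidifiable e → G'.Rigidifiable e
  deg0 : ∀ {A A' : Type u} [CommRing A] [Algebra k A] [CommRing A'] [Algebra k A']
    {φ : A →ₐ[k] A'} {G : CurveGD k B₀ B₁ B₀₁ A} {G' : CurveGD k B₀ B₁ B₀₁ A'},
    CurveGD.IsBC φ G G' → G.Deg0 → G'.Deg0

variable (k B₀ B₁ B₀₁) in
/-- A property of gluing data over all `k`-algebras. -/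
abbrev GDProp : Type (u + 1) :=
  ∀ (A : Type u) [CommRing A] [Algebra k A], CurveGD k B₀ B₁ B₀₁ A → Prop

/-- `Q` is cut out, on the base changes of `G`, by an ideal of `A`. -/
def HasLocus (Q : GDProp k B₀ B₁ B₀₁) {A : Type u} [CommRing A] [Algebra k A]
    (G : CurveGD k B₀ B₁ B₀₁ A) : Prop :=
  ∃ J : Ideal A, ∀ (A' : Type u) [CommRing A'] [Algebra k A'] (ψ : A →ₐ[k] A')
    (G' : CurveGD k B₀ B₁ B₀₁ A'), CurveGD.IsBC ψ G G' → (Q A' G' ↔ J.map ψ.toRingHom = ⊤)

variable (B₁ B₀₁) in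
/-- The stage lemmas `stage0_locus … stage4_locus` (shapes of the skeleton, `hC` applied). -/
structure StageLeaves (x : B₀) (y : B₁) (e : B₁ →ₐ[k] k) : Prop where
  stage0 : ∀ (n : ℕ) {A : Type u} [CommRing A] [Algebra k A] (G : CurveGD k B₀ B₁ B₀₁ A),
    ∃ J : Ideal A, ∀ (A' : Type u) [CommRing A'] [Algebra k A'] (ψ : A →ₐ[k] A')
      (G' : CurveGD k B₀ B₁ B₀₁ A'), CurveGD.IsBC ψ G G' →
        (P0 x n G' ↔ J.map ψ.toRingHom = ⊤)
  stage1 : ∀ (n : ℕ) {m : ℕ} (q : Fin m → (B₀ →ₐ[k] k)) {A : Type u} [CommRing A]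
    [Algebra k A] (G : CurveGD k B₀ B₁ B₀₁ A), P0 x n G →
    ∃ J : Ideal A, ∀ (A' : Type u) [CommRing A'] [Algebra k A'] (ψ : A →ₐ[k] A')
      (G' : CurveGD k B₀ B₁ B₀₁ A'), CurveGD.IsBC ψ G G' →
        (P1 x n q G' ↔ J.map ψ.toRingHom = ⊤)
  stage2 : ∀ (i : ChartIndex k B₀), i.Numeric B₀₁ y → ∀ {A : Type u} [CommRing A]
    [Algebra k A] (G : CurveGD k B₀ B₁ B₀₁ A), G.Rigidifiable e → G.Deg0 → P1 x i.n i.q G →
    ∃ J : Ideal A, ∀ (A' : Type u) [CommRing A'] [Algebra k A'] (ψ : A →ₐ[k] A')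
      (G' : CurveGD k B₀ B₁ B₀₁ A'), CurveGD.IsBC ψ G G' →
        (P2 x y i.n i.q G' ↔ J.map ψ.toRingHom = ⊤)
  stage3 : ∀ (i : ChartIndex k B₀), i.Numeric B₀₁ y → ∀ {A : Type u} [CommRing A]
    [Algebra k A] (G : CurveGD k B₀ B₁ B₀₁ A), G.Rigidifiable e → G.Deg0 →
    P2 x y i.n i.q G →
    ∃ J : Ideal A, ∀ (A' : Type u) [CommRing A'] [Algebra k A'] (ψ : A →ₐ[k] A')
      (G' : CurveGD k B₀ B₁ B₀₁ A'), CurveGD.IsBC ψ G G' →
        (P3 x y i.n i.q i.β G' ↔ J.map ψ.toRingHom = ⊤)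
  stage4 : ∀ (i : ChartIndex k B₀), i.Numeric B₀₁ y → ∀ {A : Type u} [CommRing A]
    [Algebra k A] (G : CurveGD k B₀ B₁ B₀₁ A), G.Rigidifiable e → G.Deg0 →
    P3 x y i.n i.q i.β G →
    ∃ J : Ideal A, ∀ (A' : Type u) [CommRing A'] [Algebra k A'] (ψ : A →ₐ[k] A')
      (G' : CurveGD k B₀ B₁ B₀₁ A'), CurveGD.IsBC ψ G G' →
        (P4 x y i G' ↔ J.map ψ.toRingHom = ⊤)

variable (B₁ B₀₁) in
/-- The point lemmas `pointCond_bc`, `pointCond_unique`, `pointCond_iso` (`hC` applied). -/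
structure PointLeaves (x : B₀) (y : B₁) (e : B₁ →ₐ[k] k) : Prop where
  bc : ∀ (i : ChartIndex k B₀), i.Numeric B₀₁ y → ∀ {A A' : Type u} [CommRing A] [Algebra k A]
    [CommRing A'] [Algebra k A'] {G : CurveGD k B₀ B₁ B₀₁ A} {G' : CurveGD k B₀ B₁ B₀₁ A'}
    (ψ : A →ₐ[k] A'), CurveGD.IsBC ψ G G' → G.Rigidifiable e → G.Deg0 →
    ∀ {φ₀ : H491.Rβ k i.β →ₐ[k] A}, PointCond x y i G φ₀ → PointCond x y i G' (ψ.comp φ₀)
  unique : ∀ (i : ChartIndex k B₀) {A : Type u} [CommRing A] [Algebra k A]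
    {G : CurveGD k B₀ B₁ B₀₁ A} {φ₀ φ₀' : H491.Rβ k i.β →ₐ[k] A},
    PointCond x y i G φ₀ → PointCond x y i G φ₀' → φ₀ = φ₀'
  iso : ∀ (i : ChartIndex k B₀) {A : Type u} [CommRing A] [Algebra k A]
    {G G' : CurveGD k B₀ B₁ B₀₁ A} {φ₀ : H491.Rβ k i.β →ₐ[k] A},
    PointCond x y i G φ₀ → PointCond x y i G' φ₀ → G.IsIso G'

variable (B₁ B₀₁) in
/-- The cover lemma `exists_good_chart` (`hC` applied). -/
def CoverLeaf (x : B₀) (y : B₁) (e : B₁ →ₐ[k] k) : Prop :=
  ∀ (K : Type u) [Field K] [Algebra k K] (G : CurveGD k B₀ B₁ B₀₁ K), G.Deg0 →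
    ∃ i : ChartIndex k B₀, i.Numeric B₀₁ y ∧ ∃ D : CurveGD k B₀ B₁ B₀₁ (chartRing i),
      D.Rigidifiable e ∧ D.Deg0 ∧ PointCond x y i D (chartCan i) ∧
        ∃ φ : chartRing i →ₐ[k] K, CurveGD.IsBC φ D G

/-! ## Generalities -/

section General

/-- The identity isomorphism of a gluing datum. -/
theorem isIso_refl {A R₀ R₁ R₀₁ : Type u} [CommRing A] [CommRing R₀] [CommRing R₁]
    [CommRing R₀₁] [Algebra A R₀] [Algebra A R₁] [Algebra A R₀₁] [Algebra R₀ R₀₁]
    [Algebra R₁ R₀₁] [IsScalarTower A R₀ R₀₁] [IsScalarTower A R₁ R₀₁]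
    (G : GlueDatum A R₀ R₁ R₀₁) : G.IsIso G :=
  ⟨{ e₀ := LinearEquiv.refl _ _
     e₁ := LinearEquiv.refl _ _
     e₀₁ := LinearEquiv.refl _ _
     comm₀ := fun _ => rfl
     comm₁ := fun _ => rfl }⟩

variable {R : Type u} [CommRing R] [Algebra k R] {A : Type u} [CommRing A] [Algebra k A]

/-- The lift of `θ : R → A` to the localization away from `a`, when `θ a` is a unit. -/
noncomputable def awayLift (a : R) (θ : R →ₐ[k] A) (h : IsUnit (θ a)) :
    Localization.Away a →ₐ[k] A :=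
  { IsLocalization.Away.lift (S := Localization.Away a) a (g := θ.toRingHom) h with
    commutes' := fun c => by
      change IsLocalization.Away.lift (S := Localization.Away a) a (g := θ.toRingHom) h
        (algebraMap k (Localization.Away a) c) = algebraMap k A c
      rw [IsScalarTower.algebraMap_apply k R (Localization.Away a),
        IsLocalization.Away.lift_eq]
      exact θ.commutes c }

theorem awayLift_algebraMap (a : R) (θ : R →ₐ[k] A) (h : IsUnit (θ a)) (r : R) :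
    awayLift a θ h (algebraMap R (Localization.Away a) r) = θ r :=
  IsLocalization.Away.lift_eq (S := Localization.Away a) a (g := θ.toRingHom) h r

theorem awayLift_comp (a : R) (θ : R →ₐ[k] A) (h : IsUnit (θ a)) :
    (awayLift a θ h).comp (IsScalarTower.toAlgHom k R (Localization.Away a)) = θ :=
  AlgHom.ext fun r => awayLift_algebraMap a θ h r

/-- Two algebra maps out of a localization agree if they agree on the base ring. -/
theorem away_algHom_ext (a : R) {φ ψ : Localization.Away a →ₐ[k] A}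
    (h : φ.comp (IsScalarTower.toAlgHom k R (Localization.Away a)) =
      ψ.comp (IsScalarTower.toAlgHom k R (Localization.Away a))) : φ = ψ := by
  have h' : φ.toRingHom = ψ.toRingHom := by
    refine IsLocalization.ringHom_ext (Submonoid.powers a) ?_
    ext r
    exact congr($h r)
  exact AlgHom.ext fun z => congr($h' z)

/-- Over a field, an ideal maps to the unit ideal iff one of its elements maps to a nonzero
element. -/
theorem map_eq_top_iff_of_field {L : Type u} [Field L] [Algebra k L] (θ : A →ₐ[k] L)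
    (J : Ideal A) : J.map θ.toRingHom = ⊤ ↔ ∃ a ∈ J, θ a ≠ 0 := by
  constructor
  · intro h
    by_contra hne
    have hle : J.map θ.toRingHom ≤ ⊥ := by
      rw [Ideal.map_le_iff_le_comap]
      intro a ha
      rw [Ideal.mem_comap, Ideal.mem_bot]
      by_contra h0
      exact hne ⟨a, ha, h0⟩
    rw [h] at hle
    exact top_ne_bot (le_bot_iff.1 hle)
  · rintro ⟨a, ha, hne⟩
    exact Ideal.eq_top_of_isUnit_mem _ (Ideal.mem_map_of_mem θ.toRingHom ha)
      (IsUnit.mk0 _ hne)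

end General

/-! ## Chaining stage lemmas -/

section Chain

variable (e : B₁ →ₐ[k] k)

/-- Fibrewise criterion: a rigidifiable degree-zero datum all of whose field-valued fibres
satisfy `P` satisfies `P`. -/
def Fib (P : GDProp k B₀ B₁ B₀₁) : Prop :=
  ∀ (A : Type u) [CommRing A] [Algebra k A] (G : CurveGD k B₀ B₁ B₀₁ A),
    G.Rigidifiable e → G.Deg0 →
    (∀ (K : Type u) [Field K] [Algebra k K] (ψ : A →ₐ[k] K) (GK : CurveGD k B₀ B₁ B₀₁ K),
      CurveGD.IsBC ψ G GK → P K GK) → P A G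

/-- Openness: if the fibre at one field-valued point satisfies `P`, so do all fibres over some
`D(c)` containing the point. -/
def Spread (P : GDProp k B₀ B₁ B₀₁) : Prop :=
  ∀ (A : Type u) [CommRing A] [Algebra k A] (G : CurveGD k B₀ B₁ B₀₁ A),
    G.Rigidifiable e → G.Deg0 →
    ∀ (K : Type u) [Field K] [Algebra k K] (ψ : A →ₐ[k] K) (GK : CurveGD k B₀ B₁ B₀₁ K),
      CurveGD.IsBC ψ G GK → P K GK →
      ∃ c : A, ψ c ≠ 0 ∧
        ∀ (L : Type u) [Field L] [Algebra k L] (θ : A →ₐ[k] L) (Gθ : CurveGD k B₀ B₁ B₀₁ L),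
          CurveGD.IsBC θ G Gθ → θ c ≠ 0 → P L Gθ

theorem fib_true : Fib (B₀₁ := B₀₁) e (fun _ _ _ (_ : CurveGD k B₀ B₁ B₀₁ _) => True) := by
  intro A _ _ G _ _ _
  trivial

theorem spread_true :
    Spread (B₀₁ := B₀₁) e (fun _ _ _ (_ : CurveGD k B₀ B₁ B₀₁ _) => True) := by
  intro A _ _ G _ _ K _ _ ψ GK _ _
  refine ⟨1, ?_, fun _ _ _ _ _ _ _ => trivial⟩
  rw [map_one]
  exact one_ne_zero

variable {e}

/-- **The chaining step.** -/
theorem step (h : GDCFacts k B₀ B₁ B₀₁ e) {P Q : GDProp k B₀ B₁ B₀₁}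
    (hQP : ∀ (K : Type u) [Field K] [Algebra k K] (G : CurveGD k B₀ B₁ B₀₁ K),
      Q K G → P K G)
    (stage : ∀ (A : Type u) [CommRing A] [Algebra k A] (G : CurveGD k B₀ B₁ B₀₁ A),
      G.Rigidifiable e → G.Deg0 → P A G → HasLocus Q G)
    (fibP : Fib e P) (sprP : Spread e P) : Fib e Q ∧ Spread e Q := by
  constructor
  · intro A _ _ G hr hd hfib
    have hP : P A G := fibP A G hr hd (fun K _ _ ψ GK hbc => hQP K GK (hfib K ψ GK hbc))
    obtain ⟨J, hJ⟩ := stage A G hr hd hP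
    have hJtop : J = ⊤ := by
      by_contra hne
      obtain ⟨m, hm, hle⟩ := Ideal.exists_le_maximal J hne
      let _ : Field (A ⧸ m) := Ideal.Quotient.field m
      obtain ⟨GK, hGK⟩ := h.exists_bc (Ideal.Quotient.mkₐ k m) G
      have h1 := (hJ (A ⧸ m) (Ideal.Quotient.mkₐ k m) GK hGK).1
        (hfib (A ⧸ m) (Ideal.Quotient.mkₐ k m) GK hGK)
      obtain ⟨a, ha, hne'⟩ := (map_eq_top_iff_of_field (Ideal.Quotient.mkₐ k m) J).1 h1
      exact hne' (Ideal.Quotient.eq_zero_iff_mem.2 (hle ha))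
    refine (hJ A (AlgHom.id k A) G (h.id (isIso_refl G))).2 ?_
    rw [hJtop]
    exact Ideal.map_top _
  · intro A _ _ G hr hd K _ _ ψ GK hbc hQ
    obtain ⟨a, ha, hgood⟩ := sprP A G hr hd K ψ GK hbc (hQP K GK hQ)
    obtain ⟨Ga, hGa⟩ := h.exists_bc (IsScalarTower.toAlgHom k A (Localization.Away a)) G
    have hra := h.rig hGa hr
    have hda := h.deg0 hGa hd
    have hPa : P (Localization.Away a) Ga := by
      refine fibP _ Ga hra hda (fun L _ _ χ Gχ hχ => ?_)
      refine hgood L (χ.comp (IsScalarTower.toAlgHom k A (Localization.Away a))) Gχ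
        (h.comp hGa hχ) ?_
      have hu : IsUnit (algebraMap A (Localization.Away a) a) :=
        IsLocalization.Away.algebraMap_isUnit a
      exact (hu.map χ).ne_zero
    obtain ⟨J, hJ⟩ := stage _ Ga hra hda hPa
    have hu : IsUnit (ψ a) := IsUnit.mk0 _ ha
    have hGKa : CurveGD.IsBC (awayLift a ψ hu) Ga GK :=
      h.cancel hGa (by rw [awayLift_comp]; exact hbc)
    obtain ⟨c', hc', hne⟩ := (map_eq_top_iff_of_field _ J).1 ((hJ K _ GK hGKa).1 hQ)
    obtain ⟨n, b, hb⟩ := IsLocalization.Away.surj a c'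
    have hbJ : algebraMap A (Localization.Away a) b ∈ J := by
      rw [← hb]
      exact J.mul_mem_right _ hc'
    refine ⟨a * b, ?_, ?_⟩
    · have hψb : ψ b = awayLift a ψ hu c' * ψ a ^ n := by
        rw [← awayLift_algebraMap a ψ hu b, ← hb, map_mul, map_pow, awayLift_algebraMap]
      rw [map_mul, hψb]
      exact mul_ne_zero ha (mul_ne_zero hne (pow_ne_zero _ ha))
    · intro L _ _ θ Gθ hθ hne'
      rw [map_mul] at hne'
      have hθa : θ a ≠ 0 := left_ne_zero_of_mul hne'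
      have hθb : θ b ≠ 0 := right_ne_zero_of_mul hne'
      have hu' : IsUnit (θ a) := IsUnit.mk0 _ hθa
      have hGθa : CurveGD.IsBC (awayLift a θ hu') Ga Gθ :=
        h.cancel hGa (by rw [awayLift_comp]; exact hθ)
      refine (hJ L _ Gθ hGθa).2 ((map_eq_top_iff_of_field _ J).2
        ⟨algebraMap A (Localization.Away a) b, hbJ, ?_⟩)
      rw [awayLift_algebraMap]
      exact hθb

end Chain

/-! ## The chart conditions -/

section Charts

variable {x : B₀} {y : B₁} {e : B₁ →ₐ[k] k}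

section Implications

variable {A : Type u} [CommRing A] [Algebra k A] {G : CurveGD k B₀ B₁ B₀₁ A}

theorem p2_of_p3 {n m g : ℕ} {q : Fin m → (B₀ →ₐ[k] k)} {β : Fin g → B₀}
    (h : P3 x y n q β G) : P2 x y n q G := by
  obtain ⟨h1, s, hs, -⟩ := h
  exact ⟨h1, s, hs⟩

theorem p3_of_pointCond {i : ChartIndex k B₀} {φ₀ : H491.Rβ k i.β →ₐ[k] A}
    (h : PointCond x y i G φ₀) : P3 x y i.n i.q i.β G := by
  obtain ⟨s, hs, hspan⟩ := h.sect
  exact ⟨h.p1, s, hs, _, (H491.isChart_univIdeal (k := k) i.β).map φ₀, hspan⟩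

theorem p3_of_p4 {i : ChartIndex k B₀} (h : P4 x y i G) : P3 x y i.n i.q i.β G := by
  obtain ⟨φ₀, hφ₀⟩ := h
  exact p3_of_pointCond hφ₀

end Implications

/-- The chain of the five stage lemmas: membership in a chart satisfies the fibrewise
criterion and is open. -/
theorem fib_spread_p4 (h : GDCFacts k B₀ B₁ B₀₁ e) (S : StageLeaves B₁ B₀₁ x y e)
    (i : ChartIndex k B₀) (hnum : i.Numeric B₀₁ y) :
    Fib e (fun A _ _ (G : CurveGD k B₀ B₁ B₀₁ A) => P4 x y i G) ∧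
      Spread e (fun A _ _ (G : CurveGD k B₀ B₁ B₀₁ A) => P4 x y i G) := by
  have s0 := step h (P := fun _ _ _ _ => True)
    (Q := fun A _ _ (G : CurveGD k B₀ B₁ B₀₁ A) => P0 x i.n G)
    (fun _ _ _ _ _ => trivial) (fun A _ _ G _ _ _ => S.stage0 i.n G) (fib_true e)
    (spread_true e)
  have s1 := step h (Q := fun A _ _ (G : CurveGD k B₀ B₁ B₀₁ A) => P1 x i.n i.q G)
    (fun _ _ _ _ hq => hq.1) (fun A _ _ G _ _ hP => S.stage1 i.n i.q G hP) s0.1 s0.2
  have s2 := step h (Q := fun A _ _ (G : CurveGD k B₀ B₁ B₀₁ A) => P2 x y i.n i.q G)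
    (fun _ _ _ _ hq => hq.1) (fun A _ _ G hr hd hP => S.stage2 i hnum G hr hd hP) s1.1 s1.2
  have s3 := step h (Q := fun A _ _ (G : CurveGD k B₀ B₁ B₀₁ A) => P3 x y i.n i.q i.β G)
    (fun _ _ _ _ hq => p2_of_p3 hq) (fun A _ _ G hr hd hP => S.stage3 i hnum G hr hd hP)
    s2.1 s2.2
  exact step h (Q := fun A _ _ (G : CurveGD k B₀ B₁ B₀₁ A) => P4 x y i G)
    (fun _ _ _ _ hq => p3_of_p4 hq) (fun A _ _ G hr hd hP => S.stage4 i hnum G hr hd hP)
    s3.1 s3.2

/-- A point of the chart `i` is a base change of the universal point. -/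
theorem exists_isBC_of_pointCond (h : GDCFacts k B₀ B₁ B₀₁ e) (Pt : PointLeaves B₁ B₀₁ x y e)
    {i : ChartIndex k B₀} (hnum : i.Numeric B₀₁ y) {D : CurveGD k B₀ B₁ B₀₁ (chartRing i)}
    (hr : D.Rigidifiable e) (hd : D.Deg0) (hD : PointCond x y i D (chartCan i))
    {A : Type u} [CommRing A] [Algebra k A] {G : CurveGD k B₀ B₁ B₀₁ A}
    (hG : P4 x y i G) : ∃ φ : chartRing i →ₐ[k] A, CurveGD.IsBC φ D G := by
  obtain ⟨φ₀, hφ₀⟩ := hG
  have hφ : (awayLift i.f φ₀ hφ₀.unit).comp (chartCan i) = φ₀ := awayLift_comp i.f φ₀ hφ₀.unit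
  obtain ⟨D', hD'⟩ := h.exists_bc (awayLift i.f φ₀ hφ₀.unit) D
  have h1 : PointCond x y i D' φ₀ := by
    have := Pt.bc i hnum (awayLift i.f φ₀ hφ₀.unit) hD' hr hd hD
    rwa [hφ] at this
  have h3 := h.comp hD' (h.id (Pt.iso i h1 hφ₀))
  rw [AlgHom.id_comp] at h3
  exact ⟨_, h3⟩

/-- A base change of the universal point is a point of the chart. -/
theorem p4_of_isBC (Pt : PointLeaves B₁ B₀₁ x y e)
    {i : ChartIndex k B₀} (hnum : i.Numeric B₀₁ y) {D : CurveGD k B₀ B₁ B₀₁ (chartRing i)}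
    (hr : D.Rigidifiable e) (hd : D.Deg0) (hD : PointCond x y i D (chartCan i))
    {A : Type u} [CommRing A] [Algebra k A] {G : CurveGD k B₀ B₁ B₀₁ A}
    (φ : chartRing i →ₐ[k] A) (hφ : CurveGD.IsBC φ D G) : P4 x y i G :=
  ⟨φ.comp (chartCan i), Pt.bc i hnum φ hφ hr hd hD⟩

/-- Base changes of points of a chart are points of the chart. -/
theorem p4_baseChange (Pt : PointLeaves B₁ B₀₁ x y e)
    {i : ChartIndex k B₀} (hnum : i.Numeric B₀₁ y) {A A' : Type u} [CommRing A] [Algebra k A]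
    [CommRing A'] [Algebra k A'] {G : CurveGD k B₀ B₁ B₀₁ A} {G' : CurveGD k B₀ B₁ B₀₁ A'}
    (ψ : A →ₐ[k] A') (hψ : CurveGD.IsBC ψ G G') (hr : G.Rigidifiable e) (hd : G.Deg0)
    (hG : P4 x y i G) : P4 x y i G' := by
  obtain ⟨φ₀, hφ₀⟩ := hG
  exact ⟨ψ.comp φ₀, Pt.bc i hnum ψ hψ hr hd hφ₀⟩

end Charts

/-! ## The chart family -/

section Family

variable {x : B₀} {y : B₁} {e : B₁ →ₐ[k] k}

/-- The set of `c : A` such that all field-valued fibres of `G` over `D(c)` lie in chart `i`. -/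
def goodSet (x : B₀) (y : B₁) (i : ChartIndex k B₀) {A : Type u} [CommRing A] [Algebra k A]
    (G : CurveGD k B₀ B₁ B₀₁ A) : Set A :=
  {c | ∀ (L : Type u) [Field L] [Algebra k L] (θ : A →ₐ[k] L) (Gθ : CurveGD k B₀ B₁ B₀₁ L),
    CurveGD.IsBC θ G Gθ → θ c ≠ 0 → P4 x y i Gθ}

/-- The locus ideal of chart `i` for the datum `G`. -/
def locusIdeal (x : B₀) (y : B₁) (i : ChartIndex k B₀) {A : Type u} [CommRing A] [Algebra k A]
    (G : CurveGD k B₀ B₁ B₀₁ A) : Ideal A :=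
  Ideal.span (goodSet x y i G)

theorem p4_of_map_locusIdeal {i : ChartIndex k B₀} {A : Type u} [CommRing A] [Algebra k A]
    {G : CurveGD k B₀ B₁ B₀₁ A} {L : Type u} [Field L] [Algebra k L] (θ : A →ₐ[k] L)
    (Gθ : CurveGD k B₀ B₁ B₀₁ L) (hθ : CurveGD.IsBC θ G Gθ)
    (htop : (locusIdeal x y i G).map θ.toRingHom = ⊤) : P4 x y i Gθ := by
  by_contra hnot
  have hle : locusIdeal x y i G ≤ RingHom.ker θ.toRingHom := by
    refine Ideal.span_le.2 fun c hc => ?_
    by_contra hne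
    exact hnot (hc L θ Gθ hθ hne)
  obtain ⟨c, hc, hne⟩ := (map_eq_top_iff_of_field θ _).1 htop
  exact hne (hle hc)

/-- A finitely generated `k[X]`-module-finite algebra is of finite type. -/
theorem finiteType_of_finite_aeval {B : Type u} [CommRing B] [Algebra k B] (x : B)
    (h : (Polynomial.aeval x : Polynomial k →ₐ[k] B).Finite) : Algebra.FiniteType k B := by
  have h1 : ((Polynomial.aeval x : Polynomial k →ₐ[k] B).toRingHom).FiniteType :=
    RingHom.Finite.finiteType h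
  have h2 : (algebraMap k (Polynomial k)).FiniteType :=
    RingHom.finiteType_algebraMap.mpr inferInstance
  have h3 := RingHom.FiniteType.comp h1 h2
  have h4 : ((Polynomial.aeval x : Polynomial k →ₐ[k] B).toRingHom).comp
      (algebraMap k (Polynomial k)) = algebraMap k B := by
    ext a
    simp
  rw [h4] at h3
  exact RingHom.finiteType_algebraMap.mp h3

/-- **ALGCHARTS, top assembly**: the chart family from the leaves of the skeleton. -/
theorem nonempty_algChartFamily (hC : IsCurveChart k B₀ B₁ B₀₁ x y e)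
    (h : GDCFacts k B₀ B₁ B₀₁ e) (S : StageLeaves B₁ B₀₁ x y e)
    (Pt : PointLeaves B₁ B₀₁ x y e) (Cov : CoverLeaf B₁ B₀₁ x y e) :
    Nonempty (AlgChartFamily k B₀ B₁ B₀₁ e) := by
  have : Algebra.FiniteType k B₀ := finiteType_of_finite_aeval x hC.finite₀
  have hspec : ∀ i : {i : ChartIndex k B₀ // i.Numeric B₀₁ y ∧ i.Good (B₀₁ := B₀₁) x y e},
      (i.2.2.choose).Rigidifiable e ∧ (i.2.2.choose).Deg0 ∧
        PointCond x y i.1 i.2.2.choose (chartCan i.1) := fun i => i.2.2.choose_spec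
  refine ⟨{
    ι := {i : ChartIndex k B₀ // i.Numeric B₀₁ y ∧ i.Good (B₀₁ := B₀₁) x y e}
    R := fun i => chartRing i.1
    finiteType := fun i => by
      have : Algebra.FiniteType k (H491.Rβ k i.1.β) := H491.finiteType_Rβ
      infer_instance
    datum := fun i => i.2.2.choose
    rig := fun i => (hspec i).1
    deg0 := fun i => (hspec i).2.1
    inj := ?_
    locus := ?_ }⟩
  · intro i A _ _ φ ψ G G' hφ hψ hiso
    have h1 := Pt.bc i.1 i.2.1 φ hφ (hspec i).1 (hspec i).2.1 (hspec i).2.2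
    have h2 := Pt.bc i.1 i.2.1 ψ hψ (hspec i).1 (hspec i).2.1 (hspec i).2.2
    have h3 := Pt.bc i.1 i.2.1 (AlgHom.id k A) (h.id hiso) (h.rig hφ (hspec i).1)
      (h.deg0 hφ (hspec i).2.1) h1
    rw [AlgHom.id_comp] at h3
    exact away_algHom_ext i.1.f (Pt.unique i.1 h3 h2)
  · intro A _ _ G hr hd
    refine ⟨fun i => locusIdeal x y i.1 G, ?_, ?_⟩
    · by_contra hne
      obtain ⟨m, hm, hle⟩ := Ideal.exists_le_maximal _ hne
      let _ : Field (A ⧸ m) := Ideal.Quotient.field m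
      obtain ⟨GK, hGK⟩ := h.exists_bc (Ideal.Quotient.mkₐ k m) G
      obtain ⟨i₀, hnum, D, hrD, hdD, hPD, φ, hφ⟩ := Cov (A ⧸ m) GK (h.deg0 hGK hd)
      have hP4 : P4 x y i₀ GK := p4_of_isBC Pt hnum hrD hdD hPD φ hφ
      obtain ⟨c, hc, hgood⟩ := (fib_spread_p4 h S i₀ hnum).2 A G hr hd (A ⧸ m)
        (Ideal.Quotient.mkₐ k m) GK hGK hP4
      have hmem : c ∈ m :=
        hle ((le_iSup (fun i : {i : ChartIndex k B₀ // i.Numeric B₀₁ y ∧
          i.Good (B₀₁ := B₀₁) x y e} => locusIdeal x y i.1 G) ⟨i₀, hnum, D, hrD, hdD, hPD⟩)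
            (Ideal.subset_span hgood))
      exact hc (Ideal.Quotient.eq_zero_iff_mem.2 hmem)
    · intro i A' _ _ ψ G' hψ
      have hr' := h.rig hψ hr
      have hd' := h.deg0 hψ hd
      constructor
      · rintro ⟨φ, hφ⟩
        have hP4 : P4 x y i.1 G' :=
          p4_of_isBC Pt i.2.1 (hspec i).1 (hspec i).2.1 (hspec i).2.2 φ hφ
        by_contra hne
        obtain ⟨m, hm, hle⟩ := Ideal.exists_le_maximal _ hne
        let _ : Field (A' ⧸ m) := Ideal.Quotient.field m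
        obtain ⟨GK, hGK⟩ := h.exists_bc (Ideal.Quotient.mkₐ k m) G'
        have hP4K : P4 x y i.1 GK :=
          p4_baseChange Pt i.2.1 (Ideal.Quotient.mkₐ k m) hGK hr' hd' hP4
        obtain ⟨c, hc, hgood⟩ := (fib_spread_p4 h S i.1 i.2.1).2 A G hr hd (A' ⧸ m)
          ((Ideal.Quotient.mkₐ k m).comp ψ) GK (h.comp hψ hGK) hP4K
        have hmem : ψ c ∈ m :=
          hle (Ideal.mem_map_of_mem ψ.toRingHom (Ideal.subset_span hgood))
        exact hc (Ideal.Quotient.eq_zero_iff_mem.2 hmem)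
      · intro htop
        refine exists_isBC_of_pointCond h Pt i.2.1 (hspec i).1 (hspec i).2.1 (hspec i).2.2 ?_
        refine (fib_spread_p4 h S i.1 i.2.1).1 A' G' hr' hd' (fun K _ _ χ GK hχ => ?_)
        refine p4_of_map_locusIdeal (χ.comp ψ) GK (h.comp hψ hχ) ?_
        have : (locusIdeal x y i.1 G).map (χ.comp ψ).toRingHom =
            ((locusIdeal x y i.1 G).map ψ.toRingHom).map χ.toRingHom :=
          (Ideal.map_map ψ.toRingHom χ.toRingHom).symm
        rw [this, htop, Ideal.map_top]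

end Family

end Fermat.Agent.S25.H145.ACTop
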