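import Fermat.Agent.S25.H145.ACTop
import Fermat.Agent.S25.H265.GDCBaseChange

/-!
# Row S25, block ALGCHARTS: the top assembly, with the GDC facts plugged in (helper145)

`algCharts_of_leaves`: `Stmt.AlgCharts k B₀ B₁ B₀₁` from the stage lemmas, the point lemmas and
the cover lemma of helper11's skeleton alone; the gluing-datum calculus GDC1–GDC7 is taken from
helper265's files on main.
-/

set_option autoImplicit false

universe u

open scoped TensorProduct

namespace Fermat.Agent.S25.H145.ACTop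

open Fermat.Agent.S25 Fermat.Agent.S25.H11

variable {k : Type u} [Field k] {B₀ B₁ B₀₁ : Type u} [CommRing B₀] [CommRing B₁] [CommRing B₀₁]
  [Algebra k B₀] [Algebra k B₁] [Algebra k B₀₁] [Algebra B₀ B₀₁] [Algebra B₁ B₀₁]
  [IsScalarTower k B₀ B₀₁] [IsScalarTower k B₁ B₀₁]

/-- GDC1, GDC2, GDC4–GDC7 hold (helper265). -/
theorem gdcFacts (e : B₁ →ₐ[k] k) : GDCFacts k B₀ B₁ B₀₁ e where
  exists_bc := fun φ G => H265.curveGD_exists_isBC φ G
  id := fun h => H265.curveGD_isBC_of_isIso_right (H265.curveGD_isBC_id _) h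
  comp := fun h h' => H265.curveGD_isBC_comp h h'
  cancel := fun h h' => H265.curveGD_isBC_of_comp h h'
  rig := fun h hr => H265.rigidifiable_of_isBC h hr
  deg0 := fun h hd => H265.deg0_of_isBC h hd

/-- The chart family from the stage, point and cover leaves. -/
theorem nonempty_algChartFamily_of_leaves {x : B₀} {y : B₁} {e : B₁ →ₐ[k] k}
    (hC : IsCurveChart k B₀ B₁ B₀₁ x y e) (S : StageLeaves B₁ B₀₁ x y e)
    (Pt : PointLeaves B₁ B₀₁ x y e) (Cov : CoverLeaf B₁ B₀₁ x y e) :
    Nonempty (AlgChartFamily k B₀ B₁ B₀₁ e) :=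
  nonempty_algChartFamily hC (gdcFacts e) S Pt Cov

/-- **ALGCHARTS** from the stage, point and cover leaves of the skeleton. -/
theorem algCharts_of_leaves
    (S : ∀ (x : B₀) (y : B₁) (e : B₁ →ₐ[k] k), IsCurveChart k B₀ B₁ B₀₁ x y e →
      StageLeaves B₁ B₀₁ x y e)
    (Pt : ∀ (x : B₀) (y : B₁) (e : B₁ →ₐ[k] k), IsCurveChart k B₀ B₁ B₀₁ x y e →
      PointLeaves B₁ B₀₁ x y e)
    (Cov : ∀ (x : B₀) (y : B₁) (e : B₁ →ₐ[k] k), IsCurveChart k B₀ B₁ B₀₁ x y e →
      CoverLeaf B₁ B₀₁ x y e) :
    Stmt.AlgCharts k B₀ B₁ B₀₁ :=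
  fun x y e hC => nonempty_algChartFamily_of_leaves hC (S x y e hC) (Pt x y e hC) (Cov x y e hC)

/-!
## How to plug in the leaves

With the leaves proved under the names and binders of the skeleton (say in a namespace opened
here), and `[IsAlgClosed k]`:

```
theorem algCharts : Stmt.AlgCharts k B₀ B₁ B₀₁ :=
  algCharts_of_leaves
    (fun x y e hC =>
      { stage0 := fun n _ _ _ G => stage0_locus hC n G
        stage1 := fun n _ q _ _ _ G h0 => stage1_locus hC n q G h0
        stage2 := fun i hnum _ _ _ G hr hd h1 => stage2_locus hC i hnum G hr hd h1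
        stage3 := fun i hnum _ _ _ G hr hd h2 => stage3_locus hC i hnum G hr hd h2
        stage4 := fun i hnum _ _ _ G hr hd h3 => stage4_locus hC i hnum G hr hd h3 })
    (fun x y e hC =>
      { bc := fun i hnum _ _ _ _ _ _ _ _ ψ hbc hr hd _ h => pointCond_bc hC i hnum ψ hbc hr hd h
        unique := fun i _ _ _ _ _ _ h h' => pointCond_unique hC i h h'
        iso := fun i _ _ _ _ _ _ h h' => pointCond_iso hC i h h' })
    (fun x y e hC K _ _ G hd => exists_good_chart hC K G hd)
```

(checked against `coord/S25-ALGCHARTS-skeleton.lean` of origin/helper11.)  The leaves DEG1–DEG3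
and GDC3 of the skeleton are not needed by the top assembly.
-/

end Fermat.Agent.S25.H145.ACTop
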