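import Mathlib
import Fermat.Agent.S25.H626.LocalGen
import Fermat.Agent.S25.H926.GlueHom

/-!
# S25 (helper145): evaluation along a section, sections-level

`σ : T ⟶ Y` a morphism of schemes, `L` a sheaf of modules on `Y` and `ρ : σ^* L ≅ 𝒪_T` an
isomorphism.  By adjunction `ρ` is a morphism `ev : L ⟶ σ_* 𝒪_T`, i.e. a `σ`-semilinear family of
maps `Γ(L, U) → Γ(T, σ⁻¹ U)`.  The main result (`EvFamily.exists_eq_mul_evS`,
`eq_of_mul_evS_eq`) says that over every open `W ⊆ Y` the semilinear families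
`L|_W → (σ_* 𝒪_T)|_W` form a free module of rank one over `Γ(T, σ⁻¹ W)` generated by `ev`.
This is the base change compatibility of the rigidification, in sections-level form.
-/

set_option autoImplicit false

universe u

open CategoryTheory AlgebraicGeometry TopologicalSpace Opposite

namespace Fermat.Agent.S25.H145

open Fermat.Agent.S25.H626 (res resO)

noncomputable section

variable {Y T : Scheme.{u}}

/-- The structure sheaf as a module over itself. -/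
abbrev OMod (X : Scheme.{u}) : X.Modules := SheafOfModules.unit X.ringCatSheaf

/-- Sections of the unit module are functions (the identity). -/
def unSec (V : T.Opens) : Γ(OMod T, V) →+ Γ(T, V) := AddMonoidHom.id _

/-- Functions are sections of the unit module (the identity). -/
def toUn (V : T.Opens) : Γ(T, V) →+ Γ(OMod T, V) := AddMonoidHom.id _

@[simp] lemma unSec_toUn (V : T.Opens) (x : Γ(T, V)) : unSec V (toUn V x) = x := rfl
@[simp] lemma toUn_unSec (V : T.Opens) (x : Γ(OMod T, V)) : toUn V (unSec V x) = x := rfl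

lemma unSec_smul (V : T.Opens) (r : Γ(T, V)) (x : Γ(OMod T, V)) :
    unSec V (r • x) = r * unSec V x := rfl

lemma unSec_res {V V' : T.Opens} (h : V' ≤ V) (x : Γ(OMod T, V)) :
    unSec V' (res (OMod T) h x) = resO h (unSec V x) := rfl

lemma resO_injective_of_le {X : Scheme.{u}} {A B : X.Opens} (h : A ≤ B) (h' : B ≤ A) :
    Function.Injective (resO h : Γ(X, B) → Γ(X, A)) := by
  intro x y hxy
  have := congrArg (resO h') hxy
  rwa [H626.resO_resO, H626.resO_resO, H626.resO_id, H626.resO_id] at this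

lemma resO_add {X : Scheme.{u}} {A B : X.Opens} (h : A ≤ B) (x y : Γ(X, B)) :
    resO h (x + y) = resO h x + resO h y := map_add _ x y

variable (σ : T ⟶ Y)

/-- Sections of a pushforward (the identity). -/
def pfSec (M : T.Modules) (U : Y.Opens) :
    Γ((Scheme.Modules.pushforward σ).obj M, U) →+ Γ(M, σ ⁻¹ᵁ U) := AddMonoidHom.id _

lemma pfSec_smul (M : T.Modules) (U : Y.Opens) (r : Γ(Y, U))
    (x : Γ((Scheme.Modules.pushforward σ).obj M, U)) :
    pfSec σ M U (r • x) = σ.app U r • pfSec σ M U x := rfl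

lemma pfSec_res (M : T.Modules) {U U' : Y.Opens} (h : U' ≤ U)
    (x : Γ((Scheme.Modules.pushforward σ).obj M, U)) :
    pfSec σ M U' (res _ h x) = res M (σ.preimage_mono h) (pfSec σ M U x) := rfl

lemma pfSec_map_app {M M' : T.Modules} (g : M ⟶ M') (U : Y.Opens)
    (x : Γ((Scheme.Modules.pushforward σ).obj M, U)) :
    pfSec σ M' U (((Scheme.Modules.pushforward σ).map g).app U x) =
      g.app (σ ⁻¹ᵁ U) (pfSec σ M U x) := rfl

lemma app_resO {U U' : Y.Opens} (h : U' ≤ U) (r : Γ(Y, U)) :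
    σ.app U' (resO h r) = resO (σ.preimage_mono h) (σ.app U r) := by
  have := σ.naturality (homOfLE h).op
  exact congr($this r)

section Eval

variable {σ} {L : Y.Modules} (ρ : (Scheme.Modules.pullback σ).obj L ≅ OMod T)

/-- The evaluation morphism `L ⟶ σ_* 𝒪_T` adjoint to the rigidification `ρ`. -/
def ev : L ⟶ (Scheme.Modules.pushforward σ).obj (OMod T) :=
  (Scheme.Modules.pullbackPushforwardAdjunction σ).homEquiv _ _ ρ.hom

/-- The evaluation on sections. -/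
def evS (U : Y.Opens) : Γ(L, U) →+ Γ(T, σ ⁻¹ᵁ U) :=
  (unSec _).comp ((pfSec σ (OMod T) U).comp ((ev ρ).app U).hom)

lemma evS_apply (U : Y.Opens) (s : Γ(L, U)) :
    evS ρ U s = unSec _ (pfSec σ (OMod T) U ((ev ρ).app U s)) := rfl

lemma evS_smul (U : Y.Opens) (r : Γ(Y, U)) (s : Γ(L, U)) :
    evS ρ U (r • s) = σ.app U r * evS ρ U s := by
  rw [evS_apply, Scheme.Modules.Hom.app_smul, pfSec_smul, unSec_smul]
  rfl

lemma evS_res {U U' : Y.Opens} (h : U' ≤ U) (s : Γ(L, U)) :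
    evS ρ U' (res L h s) = resO (σ.preimage_mono h) (evS ρ U s) := by
  rw [evS_apply, H626.app_res, pfSec_res, unSec_res]
  rfl

end Eval

section Family

variable (L : Y.Modules)

/-- A `σ`-semilinear family `Γ(L, U) → Γ(T, σ⁻¹ U)` for the opens `U ≤ W`, i.e. a morphism
`L|_W ⟶ (σ_* 𝒪_T)|_W` in sections-level form. -/
structure EvFamily (W : Y.Opens) where
  a : ∀ U : Y.Opens, U ≤ W → (Γ(L, U) →+ Γ(T, σ ⁻¹ᵁ U))
  nat : ∀ (U U' : Y.Opens) (hU : U ≤ W) (h : U' ≤ U) (s : Γ(L, U)),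
    a U' (h.trans hU) (res L h s) = resO (σ.preimage_mono h) (a U hU s)
  lin : ∀ (U : Y.Opens) (hU : U ≤ W) (r : Γ(Y, U)) (s : Γ(L, U)),
    a U hU (r • s) = σ.app U r * a U hU s

variable {σ L}

/-- The module `j_* j^* 𝒪_T` for the open `V ⊆ T`. -/
abbrev NMod (V : T.Opens) : T.Modules :=
  (Scheme.Modules.pushforward V.ι).obj ((OMod T).restrict V.ι)

/-- Sections of `j_* j^* 𝒪_T` are functions on `V ∩ V'` (the identity). -/
def nSec (V V' : T.Opens) : Γ(NMod V, V') →+ Γ(T, V.ι ''ᵁ (V.ι ⁻¹ᵁ V')) := AddMonoidHom.id _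

/-- The inverse of `nSec` (the identity). -/
def toN (V V' : T.Opens) : Γ(T, V.ι ''ᵁ (V.ι ⁻¹ᵁ V')) →+ Γ(NMod V, V') := AddMonoidHom.id _

@[simp] lemma nSec_toN (V V' : T.Opens) (x : Γ(T, V.ι ''ᵁ (V.ι ⁻¹ᵁ V'))) :
    nSec V V' (toN V V' x) = x := rfl

@[simp] lemma toN_nSec (V V' : T.Opens) (x : Γ(NMod V, V')) : toN V V' (nSec V V' x) = x := rfl

lemma nSec_injective (V V' : T.Opens) : Function.Injective (nSec V V') := fun _ _ h => h

lemma nSec_smul (V V' : T.Opens) (r : Γ(T, V')) (x : Γ(NMod V, V')) :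
    nSec V V' (r • x) = resO (V.ι.image_preimage_le V') r * nSec V V' x := by
  have h : nSec V V' (r • x) = ((V.ι.appIso (V.ι ⁻¹ᵁ V')).inv (V.ι.app V' r)) * nSec V V' x := rfl
  rw [h, ← ConcreteCategory.comp_apply, Scheme.Hom.app_appIso_inv]
  rfl

lemma nSec_res (V : T.Opens) {V' V'' : T.Opens} (h : V'' ≤ V') (x : Γ(NMod V, V')) :
    nSec V V'' (res (NMod V) h x) =
      resO (V.ι.image_mono (V.ι.preimage_mono h)) (nSec V V' x) := rfl

lemma image_preimage_eq_inf (V V' : T.Opens) : V.ι ''ᵁ (V.ι ⁻¹ᵁ V') = V ⊓ V' := by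
  rw [Scheme.Hom.image_preimage_eq_opensRange_inf, Scheme.Opens.opensRange_ι]

lemma image_preimage_le_right (V V' : T.Opens) : V.ι ''ᵁ (V.ι ⁻¹ᵁ V') ≤ V' := by
  rw [image_preimage_eq_inf]; exact inf_le_right

lemma image_preimage_le_left (V V' : T.Opens) : V.ι ''ᵁ (V.ι ⁻¹ᵁ V') ≤ V := by
  rw [image_preimage_eq_inf]; exact inf_le_left

lemma le_image_preimage_of_le (V V' : T.Opens) (h : V' ≤ V) : V' ≤ V.ι ''ᵁ (V.ι ⁻¹ᵁ V') := by
  rw [image_preimage_eq_inf]; exact le_inf h le_rfl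

lemma le_image_preimage (V V' : T.Opens) (h : V ≤ V') : V ≤ V.ι ''ᵁ (V.ι ⁻¹ᵁ V') := by
  rw [image_preimage_eq_inf]; exact le_inf le_rfl h

/-- The inverse of `pfSec` (the identity). -/
def toPf (σ : T ⟶ Y) (M : T.Modules) (U : Y.Opens) :
    Γ(M, σ ⁻¹ᵁ U) →+ Γ((Scheme.Modules.pushforward σ).obj M, U) := AddMonoidHom.id _

@[simp] lemma pfSec_toPf (M : T.Modules) (U : Y.Opens) (x : Γ(M, σ ⁻¹ᵁ U)) :
    pfSec σ M U (toPf σ M U x) = x := rfl

lemma isDownBasis_univ (X : Scheme.{u}) : H926.IsDownBasis (Set.univ : Set X.Opens) where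
  down := fun _ _ => trivial
  cover := fun V => le_iSup_of_le ⟨V, trivial, le_rfl⟩ le_rfl

lemma preimage_image_preimage_le (W U : Y.Opens) :
    (σ ⁻¹ᵁ W).ι ''ᵁ ((σ ⁻¹ᵁ W).ι ⁻¹ᵁ (σ ⁻¹ᵁ U)) ≤ σ ⁻¹ᵁ (U ⊓ W) := by
  rw [image_preimage_eq_inf]
  intro x hx
  exact ⟨hx.2, hx.1⟩

namespace EvFamily

variable {W : Y.Opens} (F : EvFamily σ L W)

/-- The value of the global morphism attached to a family, as a function on `σ⁻¹ W ∩ σ⁻¹ U`. -/
def toFun (U : Y.Opens) (s : Γ(L, U)) : Γ(T, (σ ⁻¹ᵁ W).ι ''ᵁ ((σ ⁻¹ᵁ W).ι ⁻¹ᵁ (σ ⁻¹ᵁ U))) :=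
  resO (preimage_image_preimage_le W U) (F.a (U ⊓ W) inf_le_right (res L inf_le_left s))

lemma toFun_add (U : Y.Opens) (s s' : Γ(L, U)) :
    F.toFun U (s + s') = F.toFun U s + F.toFun U s' := by
  simp only [toFun, H626.res_add, map_add, resO_add]

lemma toFun_res {U U' : Y.Opens} (h : U' ≤ U) (s : Γ(L, U)) :
    F.toFun U' (res L h s) =
      resO ((σ ⁻¹ᵁ W).ι.image_mono ((σ ⁻¹ᵁ W).ι.preimage_mono (σ.preimage_mono h)))
        (F.toFun U s) := by
  have h' : U' ⊓ W ≤ U ⊓ W := inf_le_inf_right W h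
  simp only [toFun]
  rw [H626.res_res, ← H626.res_res L (inf_le_left : U ⊓ W ≤ U) h', F.nat (U ⊓ W) (U' ⊓ W)
    inf_le_right h', H626.resO_resO, H626.resO_resO]

lemma toFun_smul (U : Y.Opens) (r : Γ(Y, U)) (s : Γ(L, U)) :
    F.toFun U (r • s) =
      resO ((σ ⁻¹ᵁ W).ι.image_preimage_le (σ ⁻¹ᵁ U)) (σ.app U r) * F.toFun U s := by
  simp only [toFun]
  rw [H626.res_smul, F.lin, H626.resO_mul, app_resO, H626.resO_resO]

/-- The map on sections of the global morphism attached to a family. -/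
def aMap (U : Y.Opens) :
    Γ(L, U) →+ Γ((Scheme.Modules.pushforward σ).obj (NMod (σ ⁻¹ᵁ W)), U) :=
  (toPf σ _ U).comp ((toN _ _).comp (AddMonoidHom.mk' (F.toFun U) (F.toFun_add U)))

lemma nSec_aMap (U : Y.Opens) (s : Γ(L, U)) :
    nSec _ _ (pfSec σ _ U (F.aMap U s)) = F.toFun U s := rfl

end EvFamily

lemma nSec_pfSec_injective (V : T.Opens) (U : Y.Opens) :
    Function.Injective (fun x : Γ((Scheme.Modules.pushforward σ).obj (NMod V), U) =>
      nSec V _ (pfSec σ _ U x)) := fun _ _ h => h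

lemma nSec_pfSec_res (V : T.Opens) {U U' : Y.Opens} (h : U' ≤ U)
    (x : Γ((Scheme.Modules.pushforward σ).obj (NMod V), U)) :
    nSec V _ (pfSec σ _ U' (res _ h x)) =
      resO (V.ι.image_mono (V.ι.preimage_mono (σ.preimage_mono h))) (nSec V _ (pfSec σ _ U x)) :=
  rfl

lemma nSec_pfSec_smul (V : T.Opens) (U : Y.Opens) (r : Γ(Y, U))
    (x : Γ((Scheme.Modules.pushforward σ).obj (NMod V), U)) :
    nSec V _ (pfSec σ _ U (r • x)) =
      resO (V.ι.image_preimage_le (σ ⁻¹ᵁ U)) (σ.app U r) * nSec V _ (pfSec σ _ U x) := by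
  rw [pfSec_smul, nSec_smul]

namespace EvFamily

variable {W : Y.Opens} (F : EvFamily σ L W)

lemma aMap_res {U U' : Y.Opens} (h : U' ≤ U) (s : Γ(L, U)) :
    F.aMap U' (res L h s) = res _ h (F.aMap U s) := by
  apply nSec_pfSec_injective
  show nSec _ _ (pfSec σ _ U' (F.aMap U' (res L h s))) =
    nSec _ _ (pfSec σ _ U' (res _ h (F.aMap U s)))
  rw [nSec_pfSec_res, F.nSec_aMap, F.nSec_aMap, F.toFun_res h]

lemma aMap_smul (U : Y.Opens) (r : Γ(Y, U)) (s : Γ(L, U)) :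
    F.aMap U (r • s) = r • F.aMap U s := by
  apply nSec_pfSec_injective
  show nSec _ _ (pfSec σ _ U (F.aMap U (r • s))) = nSec _ _ (pfSec σ _ U (r • F.aMap U s))
  rw [nSec_pfSec_smul, F.nSec_aMap, F.nSec_aMap, F.toFun_smul]

/-- The basis data (on all opens) of the global morphism attached to a family. -/
def toData : H926.BasisHomData (Set.univ : Set Y.Opens) L
    ((Scheme.Modules.pushforward σ).obj (NMod (σ ⁻¹ᵁ W))) where
  a U _ := F.aMap U
  nat _ _ _ _ h s := F.aMap_res h s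
  lin U _ r s := F.aMap_smul U r s

/-- The global morphism `L ⟶ σ_* j_* j^* 𝒪_T` attached to a family over `W`. -/
def toHom : L ⟶ (Scheme.Modules.pushforward σ).obj (NMod (σ ⁻¹ᵁ W)) :=
  F.toData.glue (isDownBasis_univ Y)

lemma toHom_app (U : Y.Opens) (s : Γ(L, U)) :
    nSec _ _ (pfSec σ _ U (F.toHom.app U s)) = F.toFun U s := by
  have := F.toData.glue_app_of_mem (isDownBasis_univ Y) U trivial s
  rw [toHom, this]
  rfl

end EvFamily

end Family

section Unit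

/-! ### Morphisms `𝒪_T ⟶ j_* j^* 𝒪_T` -/

variable (V : T.Opens)

/-- A morphism `𝒪_T ⟶ j_* j^* 𝒪_T` is multiplication by the image of `1`. -/
lemma nSec_app_eq (h : OMod T ⟶ NMod V) (V' : T.Opens) (x : Γ(OMod T, V')) :
    nSec V V' (h.app V' x) =
      resO (V.ι.image_preimage_le V') (unSec V' x) *
        resO (V.ι.image_mono (V.ι.preimage_mono (le_top : V' ≤ ⊤)))
          (nSec V ⊤ (h.app ⊤ (toUn ⊤ 1))) := by
  have h1 : x = unSec V' x • res (OMod T) (le_top : V' ≤ ⊤) (toUn ⊤ 1) := by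
    have : res (OMod T) (le_top : V' ≤ ⊤) (toUn ⊤ 1) = toUn V' 1 :=
      H626.res_toUnit_one T (le_top : V' ≤ ⊤)
    rw [this]
    have e : unSec V' (unSec V' x • toUn V' 1) = unSec V' x := by
      rw [unSec_smul, unSec_toUn, mul_one]
    exact e.symm
  conv_lhs => rw [h1]
  rw [Scheme.Modules.Hom.app_smul, nSec_smul, H626.app_res, nSec_res]

/-- Multiplication by `b ∈ Γ(T, V)` as a map on sections `𝒪_T → j_* j^* 𝒪_T`. -/
def mulFun (b : Γ(T, V)) (V' : T.Opens) (x : Γ(OMod T, V')) : Γ(T, V.ι ''ᵁ (V.ι ⁻¹ᵁ V')) :=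
  resO (V.ι.image_preimage_le V') (unSec V' x) * resO (image_preimage_le_left V V') b

lemma mulFun_add (b : Γ(T, V)) (V' : T.Opens) (x y : Γ(OMod T, V')) :
    mulFun V b V' (x + y) = mulFun V b V' x + mulFun V b V' y := by
  simp only [mulFun, map_add, resO_add, add_mul]

/-- Multiplication by `b`, on sections. -/
def mulMap (b : Γ(T, V)) (V' : T.Opens) : Γ(OMod T, V') →+ Γ(NMod V, V') :=
  (toN V V').comp (AddMonoidHom.mk' (mulFun V b V') (mulFun_add V b V'))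

lemma nSec_mulMap (b : Γ(T, V)) (V' : T.Opens) (x : Γ(OMod T, V')) :
    nSec V V' (mulMap V b V' x) = mulFun V b V' x := rfl

lemma mulMap_res (b : Γ(T, V)) {V' V'' : T.Opens} (h : V'' ≤ V') (x : Γ(OMod T, V')) :
    mulMap V b V'' (res (OMod T) h x) = res (NMod V) h (mulMap V b V' x) := by
  apply nSec_injective
  rw [nSec_res, nSec_mulMap, nSec_mulMap]
  simp only [mulFun, unSec_res, H626.resO_mul, H626.resO_resO]

lemma mulMap_smul (b : Γ(T, V)) (V' : T.Opens) (r : Γ(T, V')) (x : Γ(OMod T, V')) :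
    mulMap V b V' (r • x) = r • mulMap V b V' x := by
  apply nSec_injective
  rw [nSec_smul, nSec_mulMap, nSec_mulMap]
  simp only [mulFun, unSec_smul, H626.resO_mul, mul_assoc]

/-- Multiplication by `b ∈ Γ(T, V)` as a morphism `𝒪_T ⟶ j_* j^* 𝒪_T`. -/
def mulHom (b : Γ(T, V)) : OMod T ⟶ NMod V :=
  H926.BasisHomData.glue (isDownBasis_univ T)
    { a := fun V' _ => mulMap V b V'
      nat := fun _ _ _ _ h x => mulMap_res V b h x
      lin := fun V' _ r x => mulMap_smul V b V' r x }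

lemma nSec_mulHom_app (b : Γ(T, V)) (V' : T.Opens) (x : Γ(OMod T, V')) :
    nSec V V' ((mulHom V b).app V' x) =
      resO (V.ι.image_preimage_le V') (unSec V' x) * resO (image_preimage_le_left V V') b := by
  have := H926.BasisHomData.glue_app_of_mem (isDownBasis_univ T)
    { a := fun V' _ => mulMap V b V'
      nat := fun _ _ _ _ h x => mulMap_res V b h x
      lin := fun V' _ r x => mulMap_smul V b V' r x } V' trivial x
  rw [mulHom, this]
  rfl

end Unit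

section Main

variable {σ : T ⟶ Y} {L : Y.Modules} (ρ : (Scheme.Modules.pullback σ).obj L ≅ OMod T)
  {W : Y.Opens}

lemma exists_eq_ev_comp {N : T.Modules} (f : L ⟶ (Scheme.Modules.pushforward σ).obj N) :
    ∃ h : OMod T ⟶ N, f = ev ρ ≫ (Scheme.Modules.pushforward σ).map h := by
  refine ⟨ρ.inv ≫ ((Scheme.Modules.pullbackPushforwardAdjunction σ).homEquiv _ _).symm f, ?_⟩
  rw [ev, ← Adjunction.homEquiv_naturality_right, Iso.hom_inv_id_assoc,
    Equiv.apply_symm_apply]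

lemma eq_of_ev_comp_eq {N : T.Modules} (h h' : OMod T ⟶ N)
    (e : ev ρ ≫ (Scheme.Modules.pushforward σ).map h =
      ev ρ ≫ (Scheme.Modules.pushforward σ).map h') : h = h' := by
  rw [ev, ← Adjunction.homEquiv_naturality_right, ← Adjunction.homEquiv_naturality_right] at e
  have := ((Scheme.Modules.pullbackPushforwardAdjunction σ).homEquiv _ _).injective e
  exact (cancel_epi ρ.hom).mp this

lemma nSec_ev_comp_app (V : T.Opens) (h : OMod T ⟶ NMod V) (U : Y.Opens) (s : Γ(L, U)) :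
    nSec V _ (pfSec σ _ U ((ev ρ ≫ (Scheme.Modules.pushforward σ).map h).app U s)) =
      resO (V.ι.image_preimage_le (σ ⁻¹ᵁ U)) (evS ρ U s) *
        resO (V.ι.image_mono (V.ι.preimage_mono (le_top : σ ⁻¹ᵁ U ≤ ⊤)))
          (nSec V ⊤ (h.app ⊤ (toUn ⊤ 1))) := by
  have h1 : (ev ρ ≫ (Scheme.Modules.pushforward σ).map h).app U s =
      ((Scheme.Modules.pushforward σ).map h).app U ((ev ρ).app U s) := rfl
  rw [h1, pfSec_map_app, nSec_app_eq]
  rfl

/-- **Existence**: every semilinear family over `W` is a multiple of the evaluation. -/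
theorem EvFamily.exists_eq_mul_evS (F : EvFamily σ L W) :
    ∃ b : Γ(T, σ ⁻¹ᵁ W), ∀ (U : Y.Opens) (hU : U ≤ W) (s : Γ(L, U)),
      F.a U hU s = resO (σ.preimage_mono hU) b * evS ρ U s := by
  obtain ⟨h, hh⟩ := exists_eq_ev_comp ρ F.toHom
  have hVle : σ ⁻¹ᵁ W ≤ (σ ⁻¹ᵁ W).ι ''ᵁ ((σ ⁻¹ᵁ W).ι ⁻¹ᵁ ⊤) :=
    le_image_preimage (σ ⁻¹ᵁ W) ⊤ le_top
  refine ⟨resO hVle (nSec (σ ⁻¹ᵁ W) ⊤ (h.app ⊤ (toUn ⊤ 1))), fun U hU s => ?_⟩
  have hle : σ ⁻¹ᵁ U ≤ (σ ⁻¹ᵁ W).ι ''ᵁ ((σ ⁻¹ᵁ W).ι ⁻¹ᵁ (σ ⁻¹ᵁ U)) :=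
    le_image_preimage_of_le (σ ⁻¹ᵁ W) _ (σ.preimage_mono hU)
  apply resO_injective_of_le ((σ ⁻¹ᵁ W).ι.image_preimage_le (σ ⁻¹ᵁ U)) hle
  have key := nSec_ev_comp_app ρ (σ ⁻¹ᵁ W) h U s
  rw [← hh, F.toHom_app] at key
  have hF : F.toFun U s = resO ((σ ⁻¹ᵁ W).ι.image_preimage_le (σ ⁻¹ᵁ U)) (F.a U hU s) := by
    simp only [EvFamily.toFun]
    rw [F.nat U (U ⊓ W) hU inf_le_left, H626.resO_resO]
  rw [hF] at key
  rw [key, H626.resO_mul, H626.resO_resO, H626.resO_resO, mul_comm]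

/-- **Uniqueness**: the coefficient of a multiple of the evaluation is unique. -/
theorem eq_of_mul_evS_eq (b b' : Γ(T, σ ⁻¹ᵁ W))
    (h : ∀ (U : Y.Opens) (hU : U ≤ W) (s : Γ(L, U)),
      resO (σ.preimage_mono hU) b * evS ρ U s = resO (σ.preimage_mono hU) b' * evS ρ U s) :
    b = b' := by
  have hcomp : ev ρ ≫ (Scheme.Modules.pushforward σ).map (mulHom (σ ⁻¹ᵁ W) b) =
      ev ρ ≫ (Scheme.Modules.pushforward σ).map (mulHom (σ ⁻¹ᵁ W) b') := by
    apply H626.hom_ext_apply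
    intro U s
    apply nSec_pfSec_injective (σ := σ) (σ ⁻¹ᵁ W) U
    show nSec (σ ⁻¹ᵁ W) _ (pfSec σ _ U
        ((ev ρ ≫ (Scheme.Modules.pushforward σ).map (mulHom (σ ⁻¹ᵁ W) b)).app U s))
      = nSec (σ ⁻¹ᵁ W) _ (pfSec σ _ U
        ((ev ρ ≫ (Scheme.Modules.pushforward σ).map (mulHom (σ ⁻¹ᵁ W) b')).app U s))
    have h1 : ∀ c : Γ(T, σ ⁻¹ᵁ W),
        (ev ρ ≫ (Scheme.Modules.pushforward σ).map (mulHom (σ ⁻¹ᵁ W) c)).app U s =
        ((Scheme.Modules.pushforward σ).map (mulHom (σ ⁻¹ᵁ W) c)).app U ((ev ρ).app U s) :=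
      fun _ => rfl
    have h2 : ∀ c : Γ(T, σ ⁻¹ᵁ W), nSec (σ ⁻¹ᵁ W) _ (pfSec σ _ U
        ((ev ρ ≫ (Scheme.Modules.pushforward σ).map (mulHom (σ ⁻¹ᵁ W) c)).app U s)) =
        resO (preimage_image_preimage_le W U)
          (resO (σ.preimage_mono (inf_le_right : U ⊓ W ≤ W)) c *
            evS ρ (U ⊓ W) (res L inf_le_left s)) := by
      intro c
      rw [h1, pfSec_map_app, nSec_mulHom_app, evS_res, H626.resO_mul, H626.resO_resO,
        H626.resO_resO, mul_comm]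
      rfl
    rw [h2, h2, h (U ⊓ W) inf_le_right]
  have hb := eq_of_ev_comp_eq ρ _ _ hcomp
  have h3 : ∀ c : Γ(T, σ ⁻¹ᵁ W), nSec (σ ⁻¹ᵁ W) ⊤ ((mulHom (σ ⁻¹ᵁ W) c).app ⊤ (toUn ⊤ 1)) =
      resO (image_preimage_le_left (σ ⁻¹ᵁ W) ⊤) c := by
    intro c
    rw [nSec_mulHom_app, unSec_toUn, H626.resO_one, one_mul]
  have h4 := h3 b
  rw [hb, h3 b'] at h4
  have hVle : σ ⁻¹ᵁ W ≤ (σ ⁻¹ᵁ W).ι ''ᵁ ((σ ⁻¹ᵁ W).ι ⁻¹ᵁ ⊤) :=
    le_image_preimage (σ ⁻¹ᵁ W) ⊤ le_top
  exact (resO_injective_of_le (image_preimage_le_left (σ ⁻¹ᵁ W) ⊤) hVle h4).symm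

end Main

end

end Fermat.Agent.S25.H145
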