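import Mathlib
import Fermat.Agent.S25.H626.EndIso
import Fermat.Agent.S25.H626.LocalGen

/-!
# S25 (helper145): local endomorphisms of a module with local generators are scalars

Sections-level form of G4 over an open `W ⊆ Y`: a natural, linear family of endomorphisms of
`Γ(L, U)`, `U ≤ W`, is multiplication by a unique function on `W`.
-/

set_option autoImplicit false

universe u

open CategoryTheory AlgebraicGeometry TopologicalSpace Opposite

namespace Fermat.Agent.S25.H145

open Fermat.Agent.S25.H626 (res resO)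

variable {Y : Scheme.{u}}

/-- A natural, `𝒪`-linear family of endomorphisms of the sections of `L` over the opens `U ≤ W`. -/
structure LocEnd (L : Y.Modules) (W : Y.Opens) where
  a : ∀ U : Y.Opens, U ≤ W → (Γ(L, U) →+ Γ(L, U))
  nat : ∀ (U U' : Y.Opens) (hU : U ≤ W) (h : U' ≤ U) (s : Γ(L, U)),
    a U' (h.trans hU) (res L h s) = res L h (a U hU s)
  lin : ∀ (U : Y.Opens) (hU : U ≤ W) (r : Γ(Y, U)) (s : Γ(L, U)),
    a U hU (r • s) = r • a U hU s

variable {L : Y.Modules} {W : Y.Opens}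

/-- **G4, sections-level, local form.** -/
theorem LocEnd.exists_eq_smul (hL : H626.HasLocalGenerators L) (θ : LocEnd L W) :
    ∃ c : Γ(Y, W), ∀ (U : Y.Opens) (hU : U ≤ W) (s : Γ(L, U)), θ.a U hU s = resO hU c • s := by
  choose U₀ hxU s₀ hs₀ using hL
  -- local generators on `U x = U₀ x ⊓ W`
  let U : Y → Y.Opens := fun x => U₀ x ⊓ W
  have hUW : ∀ x, U x ≤ W := fun _ => inf_le_right
  let s : ∀ x, Γ(L, U x) := fun x => res L (inf_le_left : U x ≤ U₀ x) (s₀ x)
  have hs : ∀ x (V : Y.Opens) (h : V ≤ U x),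
      Function.Bijective (fun r : Γ(Y, V) => r • res L h (s x)) := by
    intro x V h
    have := hs₀ x V (h.trans inf_le_left)
    simpa only [s, H626.res_res] using this
  have hex : ∀ x, ∃ r : Γ(Y, U x), r • s x = θ.a (U x) (hUW x) (s x) := by
    intro x
    obtain ⟨r, hr⟩ := (hs x (U x) le_rfl).2 (θ.a (U x) (hUW x) (s x))
    exact ⟨r, by simpa using hr⟩
  choose r hr using hex
  have hθs : ∀ x (V : Y.Opens) (h : V ≤ U x),
      θ.a V (h.trans (hUW x)) (res L h (s x)) = resO h (r x) • res L h (s x) := by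
    intro x V h
    rw [θ.nat (U x) V (hUW x) h, ← hr x, H626.res_smul]
  have hθ : ∀ x (V : Y.Opens) (h : V ≤ U x) (t : Γ(L, V)),
      θ.a V (h.trans (hUW x)) t = resO h (r x) • t := by
    intro x V h t
    obtain ⟨b, hb⟩ := (hs x V h).2 t
    simp only at hb
    rw [← hb, θ.lin, hθs x V h, H626.smul_smul_comm']
  have hcompat : ∀ x y, resO (inf_le_left : U x ⊓ U y ≤ U x) (r x) =
      resO (inf_le_right : U x ⊓ U y ≤ U y) (r y) := by
    intro x y
    apply (hs y (U x ⊓ U y) inf_le_right).1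
    simp only
    rw [← hθ x (U x ⊓ U y) inf_le_left, ← hθ y (U x ⊓ U y) inf_le_right]
  obtain ⟨g, hg⟩ := H626.exists_gluing_O U W hUW
    (fun x hx => Opens.mem_iSup.mpr ⟨x, ⟨hxU x, hx⟩⟩) r hcompat
  refine ⟨g, fun V hV t => ?_⟩
  refine H626.eq_of_locally_eq_M L (fun x => V ⊓ U x) V (fun _ => inf_le_left) ?_ _ _ ?_
  · intro y hy
    exact Opens.mem_iSup.mpr ⟨y, ⟨hy, ⟨hxU y, hV hy⟩⟩⟩
  · intro x
    rw [H626.res_smul, H626.resO_resO, ← θ.nat V (V ⊓ U x) hV inf_le_left,
      hθ x (V ⊓ U x) inf_le_right, ← hg x, H626.resO_resO]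

end Fermat.Agent.S25.H145
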