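import Fermat.Agent.S25.Defs

/-!
# S25, assembly block AS5: `Stmt.LocalP`

Degree zero (the Prelude's `FibrewiseAlgEquivZero`) is Zariski-local on the base: every geometric
point of `T` factors through a member of the open cover.
-/

set_option autoImplicit false
universe u
open CategoryTheory CategoryTheory.Limits AlgebraicGeometry AlgebraicGeometry.RelPicard
  NeronModelInfra GoodReductionJacobian

namespace Fermat.Agent.S25.H145

noncomputable section

variable {R : Type u} [CommRing R] {C : Scheme.{u}} {c : C ⟶ Spec (CommRingCat.of R)}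
  {ε : SchemeHomOver (𝟙 (Spec (CommRingCat.of R))) c}

/-- If a geometric point `s` of `T` factors as `s' ≫ ψ` through `ψ : T' ⟶ T` and the pullback of
`M` to `T'` has degree-zero fibre at `s'`, then `M` has degree-zero fibre at `s`. -/
theorem isAlgEquivZero_of_factor {T T' : Scheme.{u}} {t : T ⟶ Spec (CommRingCat.of R)}
    {t' : T' ⟶ Spec (CommRingCat.of R)} (ψ : SchemeHomOver t' t)
    (M : RigidifiedLineBundle c ε t) {K : Type u} [Field K]
    (s : Spec (CommRingCat.of K) ⟶ T) (s' : Spec (CommRingCat.of K) ⟶ T') (hs : s' ≫ ψ.1 = s)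
    (h : IsAlgEquivZero (fibreAt c t' s')
      ((Scheme.Modules.pullback (pullback.fst (pullback.snd c t') s')).obj
        (M.pullbackAlong ψ).L)) :
    IsAlgEquivZero (fibreAt c t s)
      ((Scheme.Modules.pullback (pullback.fst (pullback.snd c t) s)).obj M.L) := by
  have hψ : pullback.snd c t' ≫ ψ.1 = baseChangeSnd c ψ ≫ pullback.snd c t := by
    simp only [baseChangeSnd, pullback.lift_snd]
  -- the canonical comparison map of fibres
  let e : Limits.pullback (pullback.snd c t) s ⟶ Limits.pullback (pullback.snd c t') s' :=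
    pullback.lift
      (pullback.lift (pullback.fst _ _ ≫ pullback.fst _ _) (pullback.snd _ _ ≫ s') (by
        rw [Category.assoc, Category.assoc, pullback.condition, ← ψ.2, ← hs,
          pullback.condition_assoc, Category.assoc]))
      (pullback.snd _ _) (by rw [pullback.lift_snd])
  have he : e ≫ fibreAt c t' s' = fibreAt c t s := by
    simp only [e, fibreAt, pullback.lift_snd]
  have hfst : e ≫ pullback.fst (pullback.snd c t') s' ≫ baseChangeSnd c ψ =
      pullback.fst (pullback.snd c t) s := by
    apply pullback.hom_ext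
    · simp only [e, baseChangeSnd, Category.assoc, pullback.lift_fst, pullback.lift_fst_assoc,
        Category.comp_id]
    · simp only [e, baseChangeSnd, Category.assoc, pullback.lift_snd, pullback.lift_fst_assoc,
        pullback.lift_snd_assoc, hs, pullback.condition]
  refine IsAlgEquivZero.of_iso ?_ (h.pullback e he)
  exact (Scheme.Modules.pullbackComp _ _).app _ ≪≫
    (Scheme.Modules.pullbackComp _ _).app M.L ≪≫
    (Scheme.Modules.pullbackCongr (by rw [Category.assoc]; exact hfst)).app M.L

/-- **AS5** (`Stmt.LocalP`), over any base ring. -/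
theorem fibrewiseAlgEquivZero_of_openCover {T : Scheme.{u}} (t : T ⟶ Spec (CommRingCat.of R))
    {ι : Type u} (U : ι → T.Opens) (hU : (⨆ i, U i) = ⊤) (M : RigidifiedLineBundle c ε t)
    (h : ∀ i, FibrewiseAlgEquivZero
      (M.pullbackAlong (⟨(U i).ι, rfl⟩ : SchemeHomOver ((U i).ι ≫ t) t))) :
    FibrewiseAlgEquivZero M := by
  intro K _ _ s
  -- the image point of `s`
  let x : T := s.base (IsLocalRing.closedPoint K)
  have hx : x ∈ (⨆ i, U i) := by rw [hU]; trivial
  obtain ⟨i, hi⟩ := TopologicalSpace.Opens.mem_iSup.mp hx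
  have hrange : Set.range s.base ⊆ Set.range (U i).ι.base := by
    rintro _ ⟨y, rfl⟩
    have hy : y = IsLocalRing.closedPoint K := Subsingleton.elim _ _
    rw [hy]
    simpa using hi
  let s' : Spec (CommRingCat.of K) ⟶ (U i).toScheme := IsOpenImmersion.lift (U i).ι s hrange
  have hs : s' ≫ (U i).ι = s := IsOpenImmersion.lift_fac _ _ _
  exact isAlgEquivZero_of_factor (⟨(U i).ι, rfl⟩ : SchemeHomOver ((U i).ι ≫ t) t) M s s' hs
    (h i K s')

/-- **AS5**: the frozen interface statement `Stmt.LocalP`. -/
theorem localP {k : Type u} [Field k] {C : Scheme.{u}} (c : C ⟶ Spec (CommRingCat.of k))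
    (ε : SchemeHomOver (𝟙 (Spec (CommRingCat.of k))) c) : Stmt.LocalP c ε :=
  fun t _ U hU M h => fibrewiseAlgEquivZero_of_openCover t U hU M h

end

end Fermat.Agent.S25.H145
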