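import Mathlib
import Fermat.Agent.S25.H145.EvalUnit
import Fermat.Agent.S25.H145.LocEnd
import Fermat.Agent.S25.H926.GlueIso

/-!
# S25 (helper145): rigidified invertible modules, locally isomorphic ⇒ isomorphic (core)

Abstract core of `Stmt.SheafSep`: `σ : T ⟶ Y` a morphism of schemes, `L`, `L'` modules on `Y`
with `L` invertible, rigidified along `σ`; `W i` an open cover of `Y` such that `σ^♯` is bijective
on the `W i` and on their pairwise intersections.  If `L` and `L'` are isomorphic on every `W i`,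
they are isomorphic.
-/

set_option autoImplicit false

universe u

open CategoryTheory AlgebraicGeometry TopologicalSpace Opposite

namespace Fermat.Agent.S25.H145

open Fermat.Agent.S25.H626 (res resO)

noncomputable section

variable {Y T : Scheme.{u}} {σ : T ⟶ Y} {L L' L'' : Y.Modules}

section LocMap

variable {W : Y.Opens}

lemma le_opensRange_ι {U W : Y.Opens} (hU : U ≤ W) : U ≤ W.ι.opensRange :=
  hU.trans (Scheme.Opens.opensRange_ι W).ge

/-- The map on sections over `U ≤ W` of a morphism between restrictions to `W`. -/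
def locMap (e : L.restrict W.ι ⟶ L'.restrict W.ι) (U : Y.Opens) (hU : U ≤ W) :
    Γ(L, U) →+ Γ(L', U) :=
  H926.sectionMap W.ι e U (le_opensRange_ι hU)

lemma locMap_res (e : L.restrict W.ι ⟶ L'.restrict W.ι) {U U' : Y.Opens} (hU : U ≤ W)
    (h : U' ≤ U) (s : Γ(L, U)) :
    locMap e U' (h.trans hU) (res L h s) = res L' h (locMap e U hU s) :=
  H926.sectionMap_map W.ι e (le_opensRange_ι hU) h s

lemma locMap_smul (e : L.restrict W.ι ⟶ L'.restrict W.ι) (U : Y.Opens) (hU : U ≤ W)
    (r : Γ(Y, U)) (s : Γ(L, U)) :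
    locMap e U hU (r • s) = r • locMap e U hU s :=
  H926.sectionMap_smul W.ι e U (le_opensRange_ι hU) r s

lemma locMap_comp (e : L.restrict W.ι ⟶ L'.restrict W.ι) (e' : L'.restrict W.ι ⟶ L''.restrict W.ι)
    (U : Y.Opens) (hU : U ≤ W) (s : Γ(L, U)) :
    locMap (e ≫ e') U hU s = locMap e' U hU (locMap e U hU s) :=
  H926.sectionMap_comp W.ι e e' U (le_opensRange_ι hU) s

lemma locMap_inv_hom (e : L.restrict W.ι ≅ L'.restrict W.ι) (U : Y.Opens) (hU : U ≤ W)
    (s : Γ(L, U)) : locMap e.inv U hU (locMap e.hom U hU s) = s :=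
  H926.sectionMap_inv_hom W.ι e U (le_opensRange_ι hU) s

lemma locMap_hom_inv (e : L.restrict W.ι ≅ L'.restrict W.ι) (U : Y.Opens) (hU : U ≤ W)
    (s : Γ(L', U)) : locMap e.hom U hU (locMap e.inv U hU s) = s :=
  H926.sectionMap_hom_inv W.ι e U (le_opensRange_ι hU) s

end LocMap

section SmulLoc

variable {W : Y.Opens}

/-- Sections of the structure sheaf of an open subscheme (the identity). -/
def ofSub (W : Y.Opens) (V : W.toScheme.Opens) : Γ(W.toScheme, V) →+* Γ(Y, W.ι ''ᵁ V) :=
  RingHom.id _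

/-- Sections of the structure sheaf of an open subscheme (the identity). -/
def toSub (W : Y.Opens) (V : W.toScheme.Opens) : Γ(Y, W.ι ''ᵁ V) →+* Γ(W.toScheme, V) :=
  RingHom.id _

@[simp] lemma ofSub_toSub (W : Y.Opens) (V : W.toScheme.Opens) (x : Γ(Y, W.ι ''ᵁ V)) :
    ofSub W V (toSub W V x) = x := rfl

lemma ofSub_resO (W : Y.Opens) {V V' : W.toScheme.Opens} (h : V' ≤ V) (x : Γ(W.toScheme, V)) :
    ofSub W V' (resO h x) = resO (W.ι.image_mono h) (ofSub W V x) := rfl

lemma appIso_inv_eq (W : Y.Opens) (V : W.toScheme.Opens) (x : Γ(W.toScheme, V)) :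
    (W.ι.appIso V).inv x = ofSub W V x := by
  rw [Scheme.Opens.ι_appIso]
  rfl

/-- A function on `W` as a global function on the open subscheme `W`. -/
def toTop (W : Y.Opens) : Γ(Y, W) →+* Γ(W.toScheme, ⊤) :=
  (toSub W ⊤).comp (Y.presheaf.map (homOfLE (W.ι_image_le ⊤)).op).hom

lemma toTop_apply (W : Y.Opens) (a : Γ(Y, W)) :
    toTop W a = toSub W ⊤ (resO (W.ι_image_le ⊤) a) := rfl

/-- Multiplication by a function on `W`, as an endomorphism of the restriction to `W`. -/
def smulLoc (L : Y.Modules) (a : Γ(Y, W)) : L.restrict W.ι ⟶ L.restrict W.ι :=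
  H626.smulHom (L.restrict W.ι) (toTop W a)

lemma locMap_smulLoc (a : Γ(Y, W)) (U : Y.Opens) (hU : U ≤ W) (s : Γ(L, U)) :
    locMap (smulLoc L a) U hU s = resO hU a • s := by
  rw [locMap, H926.sectionMap_apply, H926.imageMap_apply, smulLoc, H626.smulHom_app,
    H926.ofRestr_smul, Scheme.Modules.map_smul, H926.ofRestr_toRestr,
    H926.presheaf_map_map L _ _ (𝟙 _), appIso_inv_eq, ofSub_resO, toTop_apply, ofSub_toSub,
    H626.resO_resO]
  simp only [CategoryTheory.op_id, CategoryTheory.Functor.map_id]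
  congr 1
  change resO _ (resO _ a) = resO hU a
  rw [H626.resO_resO]

lemma smulLoc_comp (L : Y.Modules) (a a' : Γ(Y, W)) :
    smulLoc L a ≫ smulLoc L a' = smulLoc L (a' * a) := by
  rw [smulLoc, smulLoc, smulLoc, map_mul, H626.smulHom_mul]

lemma smulLoc_one (L : Y.Modules) : smulLoc L (1 : Γ(Y, W)) = 𝟙 _ := by
  rw [smulLoc, map_one, H626.smulHom_one]

/-- Multiplication by a unit, as an automorphism of the restriction to `W`. -/
def smulLocIso (L : Y.Modules) (a a' : Γ(Y, W)) (h : a * a' = 1) :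
    L.restrict W.ι ≅ L.restrict W.ι where
  hom := smulLoc L a
  inv := smulLoc L a'
  hom_inv_id := by rw [smulLoc_comp, mul_comm, h, smulLoc_one]
  inv_hom_id := by rw [smulLoc_comp, h, smulLoc_one]

end SmulLoc

section Core

variable (ρ : (Scheme.Modules.pullback σ).obj L ≅ OMod T)
  (ρ' : (Scheme.Modules.pullback σ).obj L' ≅ OMod T)

/-- The semilinear family `ev' ∘ e` attached to a local morphism `e : L|_W ⟶ L'|_W`. -/
def evFamilyOfHom {W : Y.Opens} (e : L.restrict W.ι ⟶ L'.restrict W.ι) : EvFamily σ L W where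
  a U hU := (evS ρ' U).comp (locMap e U hU)
  nat U U' hU h s := by
    show evS ρ' U' (locMap e U' _ (res L h s)) = resO _ (evS ρ' U (locMap e U hU s))
    rw [locMap_res e hU h, evS_res]
  lin U hU r s := by
    show evS ρ' U (locMap e U hU (r • s)) = σ.app U r * evS ρ' U (locMap e U hU s)
    rw [locMap_smul, evS_smul]

lemma evFamilyOfHom_a {W : Y.Opens} (e : L.restrict W.ι ⟶ L'.restrict W.ι) (U : Y.Opens)
    (hU : U ≤ W) (s : Γ(L, U)) :
    (evFamilyOfHom ρ' e).a U hU s = evS ρ' U (locMap e U hU s) := rfl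

/-- A local morphism is normalised if it is compatible with the evaluations. -/
def IsNormalised {W : Y.Opens} (e : L.restrict W.ι ⟶ L'.restrict W.ι) : Prop :=
  ∀ (U : Y.Opens) (hU : U ≤ W) (s : Γ(L, U)), evS ρ' U (locMap e U hU s) = evS ρ U s

/-- Every local isomorphism can be normalised. -/
theorem exists_isNormalised {W : Y.Opens} (hbij : Function.Bijective (σ.app W))
    (e : L.restrict W.ι ≅ L'.restrict W.ι) :
    ∃ e' : L.restrict W.ι ≅ L'.restrict W.ι, IsNormalised ρ ρ' e'.hom := by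
  obtain ⟨b, hb⟩ := (evFamilyOfHom ρ' e.hom).exists_eq_mul_evS ρ
  obtain ⟨b', hb'⟩ := (evFamilyOfHom ρ e.inv).exists_eq_mul_evS ρ'
  simp only [evFamilyOfHom_a] at hb hb'
  have hbb' : b' * b = 1 := by
    refine eq_of_mul_evS_eq ρ (b' * b) 1 (fun U hU s => ?_)
    rw [H626.resO_mul, H626.resO_one, one_mul, mul_assoc, ← hb U hU s,
      ← hb' U hU (locMap e.hom U hU s), locMap_inv_hom]
  obtain ⟨a, ha⟩ := hbij.2 b'
  obtain ⟨a', ha'⟩ := hbij.2 b
  have haa' : a * a' = 1 := hbij.1 (by rw [map_mul, ha, ha', hbb', map_one])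
  refine ⟨e ≪≫ smulLocIso L' a a' haa', fun U hU s => ?_⟩
  have h1 : (e ≪≫ smulLocIso L' a a' haa').hom = e.hom ≫ smulLoc L' a := rfl
  rw [h1, locMap_comp, locMap_smulLoc, evS_smul, app_resO, ha, hb U hU s, ← mul_assoc,
    ← H626.resO_mul, hbb', H626.resO_one, one_mul]

/-- Normalised local isomorphisms agree on overlaps. -/
theorem locMap_eq_of_isNormalised (hL : H626.HasLocalGenerators L) {W₁ W₂ : Y.Opens}
    (hinj : Function.Injective (σ.app (W₁ ⊓ W₂)))
    (e₁ : L.restrict W₁.ι ≅ L'.restrict W₁.ι) (e₂ : L.restrict W₂.ι ≅ L'.restrict W₂.ι)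
    (h₁ : IsNormalised ρ ρ' e₁.hom) (h₂ : IsNormalised ρ ρ' e₂.hom)
    (U : Y.Opens) (hU₁ : U ≤ W₁) (hU₂ : U ≤ W₂) (s : Γ(L, U)) :
    locMap e₁.hom U hU₁ s = locMap e₂.hom U hU₂ s := by
  let θ : LocEnd L (W₁ ⊓ W₂) :=
    { a := fun U hU => (locMap e₂.inv U (hU.trans inf_le_right)).comp
        (locMap e₁.hom U (hU.trans inf_le_left))
      nat := fun U U' hU h s => by
        simp only [AddMonoidHom.comp_apply]
        rw [locMap_res e₁.hom (hU.trans inf_le_left) h,
          locMap_res e₂.inv (hU.trans inf_le_right) h]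
      lin := fun U hU r s => by
        simp only [AddMonoidHom.comp_apply]
        rw [locMap_smul, locMap_smul] }
  have hθ : ∀ (U : Y.Opens) (hU : U ≤ W₁ ⊓ W₂) (s : Γ(L, U)),
      θ.a U hU s = locMap e₂.inv U (hU.trans inf_le_right)
        (locMap e₁.hom U (hU.trans inf_le_left) s) := fun _ _ _ => rfl
  obtain ⟨c, hc⟩ := θ.exists_eq_smul hL
  have hc1 : σ.app (W₁ ⊓ W₂) c = 1 := by
    refine eq_of_mul_evS_eq ρ _ 1 (fun U hU s => ?_)
    have e1 : evS ρ U (θ.a U hU s) = evS ρ U s := by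
      rw [hθ, ← h₂ U (hU.trans inf_le_right), locMap_hom_inv, h₁ U (hU.trans inf_le_left)]
    rw [hc U hU s, evS_smul, app_resO] at e1
    rw [e1, H626.resO_one, one_mul]
  have hc' : c = 1 := hinj (by rw [hc1, map_one])
  have hU : U ≤ W₁ ⊓ W₂ := le_inf hU₁ hU₂
  have key := hc U hU s
  rw [hθ, hc', H626.resO_one, one_smul] at key
  have := congrArg (locMap e₂.hom U hU₂) key
  rwa [locMap_hom_inv] at this

/-- **Core of `SheafSep`.**  Rigidified modules (`L` invertible) which are isomorphic on the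
members of an open cover on which `σ^♯` is bijective are isomorphic. -/
theorem nonempty_iso_of_local_iso (hL : Scheme.Modules.IsInvertible L)
    (ρ : (Scheme.Modules.pullback σ).obj L ≅ OMod T)
    (ρ' : (Scheme.Modules.pullback σ).obj L' ≅ OMod T) {ι : Type*}
    (W : ι → Y.Opens) (hW : ⨆ i, W i = ⊤)
    (hbij : ∀ i, Function.Bijective (σ.app (W i)))
    (hinj : ∀ i j, Function.Injective (σ.app (W i ⊓ W j)))
    (e : ∀ i, Nonempty (L.restrict (W i).ι ≅ L'.restrict (W i).ι)) : Nonempty (L ≅ L') := by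
  have hgen := H626.hasLocalGenerators_of_isInvertible hL
  have hex : ∀ i, ∃ e' : L.restrict (W i).ι ≅ L'.restrict (W i).ι, IsNormalised ρ ρ' e'.hom :=
    fun i => exists_isNormalised ρ ρ' (hbij i) (e i).some
  choose e' he' using hex
  have hf : ⨆ i, ((W i).ι).opensRange = ⊤ := by
    simp only [Scheme.Opens.opensRange_ι]
    exact hW
  obtain ⟨g, -⟩ := H926.exists_iso_of_cover (M := L) (M' := L') (fun i => (W i).ι) hf e'
    (fun i j U hi hj s => by
      have hi' : U ≤ W i := hi.trans (Scheme.Opens.opensRange_ι (W i)).le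
      have hj' : U ≤ W j := hj.trans (Scheme.Opens.opensRange_ι (W j)).le
      exact locMap_eq_of_isNormalised ρ ρ' hgen (hinj i j) (e' i) (e' j) (he' i) (he' j)
        U hi' hj' s)
  exact ⟨g⟩

end Core

end

end Fermat.Agent.S25.H145
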