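import Mathlib
import Fermat.Agent.S25.Defs
import Fermat.Agent.S25.H145.SepCore
import Fermat.Agent.S25.H205.GlobalSections

/-!
# S25, assembly block AS6: `Stmt.SheafSep`

Isomorphism of rigidified line bundles is Zariski-local on the base.
-/

set_option autoImplicit false

universe u

open CategoryTheory CategoryTheory.Limits AlgebraicGeometry AlgebraicGeometry.RelPicard
  NeronModelInfra GoodReductionJacobian TopologicalSpace

namespace Fermat.Agent.S25.H145

noncomputable section

section Transport

variable {R : Type u} [CommRing R] {C : Scheme.{u}} (c : C ⟶ Spec (CommRingCat.of R))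
  {T : Scheme.{u}} (t : T ⟶ Spec (CommRingCat.of R))

/-- The open subscheme `pr₂⁻¹ U` of `C × T` maps to `C × U`. -/
def toPullbackOpen (U : T.Opens) :
    ((pullback.snd c t) ⁻¹ᵁ U).toScheme ⟶ pullback c (U.ι ≫ t) :=
  pullback.lift (((pullback.snd c t) ⁻¹ᵁ U).ι ≫ pullback.fst c t) ((pullback.snd c t) ∣_ U) (by
    rw [← Category.assoc ((pullback.snd c t) ∣_ U), morphismRestrict_ι, Category.assoc,
      Category.assoc, pullback.condition])

lemma toPullbackOpen_baseChangeSnd (U : T.Opens) :
    toPullbackOpen c t U ≫ baseChangeSnd c (⟨U.ι, rfl⟩ : SchemeHomOver (U.ι ≫ t) t) =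
      ((pullback.snd c t) ⁻¹ᵁ U).ι := by
  apply pullback.hom_ext
  · simp only [toPullbackOpen, baseChangeSnd, Category.assoc, pullback.lift_fst,
      pullback.lift_fst_assoc, Category.comp_id]
  · simp only [toPullbackOpen, baseChangeSnd, Category.assoc, pullback.lift_snd,
      pullback.lift_snd_assoc, morphismRestrict_ι]

/-- An isomorphism between the pullbacks to `C × U` gives an isomorphism between the
restrictions to the open `pr₂⁻¹ U`. -/
lemma nonempty_restrict_iso {L L' : (pullback c t).Modules} (U : T.Opens)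
    (h : Nonempty
      ((Scheme.Modules.pullback (baseChangeSnd c (⟨U.ι, rfl⟩ : SchemeHomOver (U.ι ≫ t) t))).obj L ≅
        (Scheme.Modules.pullback
          (baseChangeSnd c (⟨U.ι, rfl⟩ : SchemeHomOver (U.ι ≫ t) t))).obj L')) :
    Nonempty (L.restrict ((pullback.snd c t) ⁻¹ᵁ U).ι ≅
      L'.restrict ((pullback.snd c t) ⁻¹ᵁ U).ι) := by
  obtain ⟨e⟩ := h
  have key : ∀ N : (pullback c t).Modules,
      N.restrict ((pullback.snd c t) ⁻¹ᵁ U).ι ≅
        (Scheme.Modules.pullback (toPullbackOpen c t U)).obj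
          ((Scheme.Modules.pullback
            (baseChangeSnd c (⟨U.ι, rfl⟩ : SchemeHomOver (U.ι ≫ t) t))).obj N) := fun N =>
    (Scheme.Modules.restrictFunctorIsoPullback _).app N ≪≫
      (Scheme.Modules.pullbackCongr (toPullbackOpen_baseChangeSnd c t U).symm).app N ≪≫
      ((Scheme.Modules.pullbackComp _ _).app N).symm
  exact ⟨key L ≪≫ (Scheme.Modules.pullback (toPullbackOpen c t U)).mapIso e ≪≫ (key L').symm⟩

end Transport

section Main

variable (k : Type u) [Field k] [IsAlgClosed k] {C : Scheme.{u}}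
  (c : C ⟶ Spec (CommRingCat.of k)) [IsProper c] [IsIntegral C]
  (ε : SchemeHomOver (𝟙 (Spec (CommRingCat.of k))) c)
  {T : Scheme.{u}} (t : T ⟶ Spec (CommRingCat.of k))

/-- `σ^♯` is bijective on the opens `pr₂⁻¹ V`. -/
lemma rigSection_app_bijective (W : (pullback c t).Opens) (V : T.Opens)
    (hW : W = (pullback.snd c t) ⁻¹ᵁ V) :
    Function.Bijective ((rigSection c t ε).app W) := by
  subst hW
  have h1 := H205.rigRestrict_bijective k c t ε V
  have hle : V ≤ (rigSection c t ε) ⁻¹ᵁ ((pullback.snd c t) ⁻¹ᵁ V) :=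
    (H205.rigSection_preimage_snd_preimage c t ε V).ge
  have hle' : (rigSection c t ε) ⁻¹ᵁ ((pullback.snd c t) ⁻¹ᵁ V) ≤ V :=
    (H205.rigSection_preimage_snd_preimage c t ε V).le
  have h2 : (H205.rigRestrict k c t ε V).hom =
      (T.presheaf.map (homOfLE hle).op).hom.comp
        ((rigSection c t ε).app ((pullback.snd c t) ⁻¹ᵁ V)).hom := rfl
  rw [h2] at h1
  have h3 : Function.Bijective (T.presheaf.map (homOfLE hle).op).hom := by
    refine ⟨resO_injective_of_le hle hle', fun x => ⟨T.presheaf.map (homOfLE hle').op x, ?_⟩⟩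
    rw [← ConcreteCategory.comp_apply, ← Functor.map_comp]
    exact congr($(T.presheaf.map_id _) x)
  have h4 : ⇑((rigSection c t ε).app ((pullback.snd c t) ⁻¹ᵁ V)).hom =
      (Function.invFun (T.presheaf.map (homOfLE hle).op).hom) ∘
        ((T.presheaf.map (homOfLE hle).op).hom.comp
          ((rigSection c t ε).app ((pullback.snd c t) ⁻¹ᵁ V)).hom) := by
    funext x
    simp only [Function.comp_apply, RingHom.coe_comp]
    exact (Function.leftInverse_invFun h3.1 _).symm
  rw [h4]
  exact (Function.bijective_iff_has_inverse.mpr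
    ⟨_, Function.rightInverse_invFun h3.2, Function.leftInverse_invFun h3.1⟩).comp h1

/-- **AS6**, `Stmt.SheafSep`. -/
theorem sheafSep : Stmt.SheafSep c ε := by
  intro T t ι U hU M M' h
  refine nonempty_iso_of_local_iso (σ := rigSection c t ε) M.isInvertible M.rigidified.some
    M'.rigidified.some (fun i => (pullback.snd c t) ⁻¹ᵁ (U i)) ?_ ?_ ?_ ?_
  · rw [← Scheme.Hom.preimage_iSup, hU]
    rfl
  · exact fun i => rigSection_app_bijective k c ε t _ (U i) rfl
  · exact fun i j => (rigSection_app_bijective k c ε t _ (U i ⊓ U j) rfl).1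
  · exact fun i => nonempty_restrict_iso c t (U i) (h i)

end Main

end

end Fermat.Agent.S25.H145
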